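import Fermat.Agent.LT.Spectral.Labels
import Fermat.Agent.LT.Descent.FromTraces

/-!
# The side of the comparison attached to a family of tests and labels
-/

noncomputable section

open MeasureTheory
open scoped NumberField ComplexConjugate
open NumberField (InfinitePlace IsTotallyComplex)

namespace Fermat.Agent.LT.Spectral.HeckeFamily

open Fermat.Agent.L2Kernel

variable {F : Type} [Field F] [NumberField F] [IsTotallyComplex F] {U : Level F} {ι : Type}
  (H : HeckeFamily U ι) (w : Weight U) {Λ : Type}

/-- The side: base tests `a`, `b`, self-adjoint labels and a twist. -/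
def side (lab : Λ → Label F ι) (hlab : ∀ l, H.adjLabel (lab l) = lab l) (a b : LipKernel F × ι)
    (T : Lp ℂ 2 w.measure →L[ℂ] Lp ℂ 2 w.measure) : Descent.Side Λ where
  E := Lp ℂ 2 w.measure
  κ := (LipKernel F × ι) ⊕ Label F ι
  op := H.fullOp w
  compact := Set.range Sum.inl
  family := H.compactFamily_full w
  lab l := Sum.inr (lab l)
  lab_selfAdjoint l :=
    (H.adjoint_labT w (lab l)).trans (congrArg (fun x => H.labT w x) (hlab l))
  a := Sum.inl a
  b := Sum.inl b
  a_mem := ⟨a, rfl⟩
  b_mem := ⟨b, rfl⟩
  a_hs := H.isHS_opT w a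
  b_hs := H.isHS_opT w b
  U := T
  ι := ↥(H.index w)
  basis := H.basis w

end Fermat.Agent.LT.Spectral.HeckeFamily
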