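import Mathlib.Analysis.InnerProductSpace.l2Space
import Mathlib.Analysis.InnerProductSpace.Adjoint
import Mathlib.Analysis.Normed.Operator.ContinuousLinearMap

/-!
# Bounded diagonal operators in a Hilbert basis
-/

noncomputable section

open scoped InnerProductSpace ComplexConjugate

namespace Fermat.Agent.LT.Spectral

variable {E : Type*} [NormedAddCommGroup E] [InnerProductSpace ℂ E] {κ : Type*}
  (b : HilbertBasis κ ℂ E) {c : κ → ℂ} {M : ℝ} (hc : ∀ i, ‖c i‖ ≤ M)

include hc in
theorem memℓp_mul (f : lp (fun _ : κ => ℂ) 2) : Memℓp (fun i => c i * f i) 2 :=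
  ((lp.memℓp f).const_mul (M : ℂ)).mono' fun i => by
    rw [norm_mul, norm_mul, Complex.norm_real, Real.norm_eq_abs]
    exact mul_le_mul_of_nonneg_right ((hc i).trans (le_abs_self M)) (norm_nonneg _)

/-- The operator multiplying the `i`-th coordinate by `c i`. -/
def diagOp : E →L[ℂ] E :=
  LinearMap.mkContinuous
    { toFun := fun x => b.repr.symm ⟨fun i => c i * b.repr x i, memℓp_mul hc (b.repr x)⟩
      map_add' := fun x y => by
        rw [← map_add]
        congr 1
        ext i
        simp [mul_add]
      map_smul' := fun a x => by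
        rw [RingHom.id_apply, ← LinearIsometryEquiv.map_smul]
        congr 1
        ext i
        simp [mul_left_comm] }
    |M| fun x => by
      simp only [LinearMap.coe_mk, AddHom.coe_mk, LinearIsometryEquiv.norm_map]
      refine (lp.norm_mono (p := 2) (by norm_num)
        (y := (M : ℂ) • b.repr x) fun i => ?_).trans_eq ?_
      · rw [lp.coeFn_smul, Pi.smul_apply, norm_smul, norm_mul, Complex.norm_real, Real.norm_eq_abs]
        exact mul_le_mul_of_nonneg_right ((hc i).trans (le_abs_self M)) (norm_nonneg _)
      · rw [norm_smul, Complex.norm_real, Real.norm_eq_abs, LinearIsometryEquiv.norm_map]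

theorem repr_diagOp (x : E) (i : κ) : b.repr (diagOp b hc x) i = c i * b.repr x i := by
  rw [diagOp, LinearMap.mkContinuous_apply]
  simp

/-- A diagonal operator scales the basis vectors. -/
theorem diagOp_basis (i : κ) : diagOp b hc (b i) = c i • b i := by
  classical
  refine b.repr.injective (lp.ext (funext fun j => ?_))
  rw [repr_diagOp, map_smul, lp.coeFn_smul, Pi.smul_apply, b.repr_self, smul_eq_mul]
  by_cases h : j = i
  · subst h; rfl
  · rw [lp.single_apply_ne _ _ _ h, mul_zero, mul_zero]

/-- Operators are determined by their values on a Hilbert basis. -/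
theorem ext_basis {F : Type*} [NormedAddCommGroup F] [InnerProductSpace ℂ F] {A B : E →L[ℂ] F}
    (h : ∀ i, A (b i) = B (b i)) : A = B := by
  ext x
  refine (b.hasSum_repr x).mapL A |>.unique ?_
  have h2 := (b.hasSum_repr x).mapL B
  simpa only [map_smul, h] using h2

/-- The adjoint of a diagonal operator has the conjugate coefficients. -/
theorem adjoint_diagOp [CompleteSpace E] {c' : κ → ℂ} {M' : ℝ} (hc' : ∀ i, ‖c' i‖ ≤ M')
    (h : ∀ i, conj (c i) = c' i) : ContinuousLinearMap.adjoint (diagOp b hc) = diagOp b hc' := by
  symm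
  rw [ContinuousLinearMap.eq_adjoint_iff]
  intro x y
  rw [← b.repr.inner_map_map, ← b.repr.inner_map_map x, lp.inner_eq_tsum, lp.inner_eq_tsum]
  refine tsum_congr fun i => ?_
  rw [repr_diagOp, repr_diagOp, RCLike.inner_apply, RCLike.inner_apply, map_mul, ← h i,
    Complex.conj_conj]
  ring

end Fermat.Agent.LT.Spectral
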