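import Fermat.Agent.LT.Spectral.RadialAt
import Fermat.Agent.LT.Spectral.Diagonal
import Fermat.Agent.LT.Descent.Expansion

/-!
# Labels: radial operators at one place and Hecke functions as bounded operators

A label acts on each eigenvector of the tests by its eigenvalue on the eigenform, and on the
common kernel of the tests by zero. It sends the operator of a test to the operator of the test
with the label prepended, so a word of labels times a test is the operator of a single test.
-/

noncomputable section

open MeasureTheory Topology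
open scoped NumberField ComplexConjugate InnerProductSpace
open NumberField (InfinitePlace IsTotallyComplex)

namespace Fermat.Agent.LT.Spectral

variable {F : Type*} [Field F] [NumberField F] {U : Level F} {ι : Type*}

variable (F) in
/-- A profile at one infinite place, or a member of the family. -/
abbrev Label (ι : Type*) : Type _ := (InfinitePlace F × Profile) ⊕ ι

theorem profileNorm_nonneg (k : Profile) : 0 ≤ profileNorm k :=
  integral_nonneg fun _ => abs_nonneg _

theorem heckeNorm_nonneg (h : HeckeFn U) : 0 ≤ heckeNorm h :=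
  finsum_nonneg fun _ => norm_nonneg _

namespace HeckeFamily

variable (H : HeckeFamily U ι)

/-- The action of a label on functions. -/
def labOp : Label F ι → (Y U → ℂ) → (Y U → ℂ)
  | .inl p => opAt p.1 p.2
  | .inr j => (H.fn j).op

/-- Prepending a label to a test. -/
def step : Label F ι → LipKernel F × ι → LipKernel F × ι
  | .inl p, t => (LipKernel.convAt p.1 p.2 t.1, t.2)
  | .inr j, t => (t.1, H.mul j t.2)

/-- The eigenvalue of a label at a function. -/
def labVal : Label F ι → (Y U → ℂ) → ℂ
  | .inl p => radialAtVal p.1 p.2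
  | .inr j => H.heckeVal j

/-- The bound of a label. -/
def labNorm : Label F ι → ℝ
  | .inl p => profileNorm p.2
  | .inr j => heckeNorm (H.fn j)

/-- The adjoint label. -/
def adjLabel : Label F ι → Label F ι
  | .inl p => .inl p
  | .inr j => .inr (H.star j)

theorem labNorm_nonneg : ∀ l : Label F ι, 0 ≤ H.labNorm l
  | .inl p => profileNorm_nonneg p.2
  | .inr _ => heckeNorm_nonneg _

theorem labOp_const_mul : ∀ (l : Label F ι) (c : ℂ) (φ : Y U → ℂ),
    H.labOp l (fun y => c * φ y) = fun y => c * H.labOp l φ y
  | .inl p, c, φ => opAt_const_mul p.1 p.2 c φ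
  | .inr j, c, φ => hecke_op_const_mul (H.fn j) c φ

/-- Prepending a label composes the actions. -/
theorem act_step : ∀ (l : Label F ι) (t : LipKernel F × ι) {φ : Y U → ℂ}, Continuous φ →
    H.act (H.step l t) φ = H.labOp l (H.act t φ)
  | .inl p, t, φ, hφ => (opAt_op p.1 p.2 t.1.toRadialKernel (continuous_hecke_op _ hφ)).symm
  | .inr j, t, φ, hφ => by
    simp only [act, step, labOp, H.mul_op]
    exact (hecke_radial_comm _ _ (continuous_hecke_op _ hφ)).symm

namespace IsEigenForm

variable {H} {φ : Y U → ℂ} {χ : LipKernel F × ι → ℂ}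

theorem labOp_eq (hφ : H.IsEigenForm φ χ) : ∀ l : Label F ι,
    H.labOp l φ = fun y => H.labVal l φ * φ y
  | .inl p => hφ.opAt_eq p.1 p.2
  | .inr j => hφ.hecke_op j

theorem norm_labVal_le (hφ : H.IsEigenForm φ χ) : ∀ l : Label F ι, ‖H.labVal l φ‖ ≤ H.labNorm l
  | .inl p => hφ.norm_radialAtVal_le p.1 p.2
  | .inr j => hφ.norm_heckeVal_le j

theorem conj_labVal (hφ : H.IsEigenForm φ χ) : ∀ l : Label F ι,
    conj (H.labVal l φ) = H.labVal (H.adjLabel l) φ
  | .inl p => hφ.conj_radialAtVal p.1 p.2
  | .inr j => hφ.conj_heckeVal j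

/-- Prepending a label multiplies the eigenvalue of a test by that of the label. -/
theorem chi_step (hφ : H.IsEigenForm φ χ) (l : Label F ι) (t : LipKernel F × ι) :
    χ (H.step l t) = H.labVal l φ * χ t := by
  obtain ⟨y, hy⟩ := hφ.ne_zero
  have h := congrFun (hφ.act_eq (H.step l t)) y
  rw [H.act_step l t hφ.continuous, hφ.act_eq t, H.labOp_const_mul, hφ.labOp_eq] at h
  simp only at h
  exact mul_right_cancel₀ hy (by rw [← h]; ring)

end IsEigenForm

/-! ### The eigenbasis and the label operators -/

variable [IsTotallyComplex F] (w : Weight U)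

/-- The indices of the eigenbasis. -/
def index : Set (Lp ℂ 2 w.measure) := (H.compactFamily w).exists_eigenvalues.choose

/-- The eigenbasis of the tests. -/
def basis : HilbertBasis (H.index w) ℂ (Lp ℂ 2 w.measure) :=
  (H.compactFamily w).exists_eigenvalues.choose_spec.choose

/-- The eigenvalues of the tests. -/
def chi : H.index w → LipKernel F × ι → ℂ :=
  (H.compactFamily w).exists_eigenvalues.choose_spec.choose_spec.choose

theorem opT_basis (v : H.index w) (t : LipKernel F × ι) :
    H.opT w t (H.basis w v) = H.chi w v t • H.basis w v :=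
  (H.compactFamily w).exists_eigenvalues.choose_spec.choose_spec.choose_spec.1 v t trivial

open Classical in
/-- The eigenform of a basis vector, or zero. -/
def form (v : H.index w) : Y U → ℂ :=
  if h : ∃ t, H.chi w v t ≠ 0 then
    (H.exists_eigenForm w ((H.basis w).orthonormal.ne_zero v) (H.opT_basis w v) h).choose
  else 0

/-- A basis vector not killed by all tests is represented by its eigenform. -/
theorem form_spec (v : H.index w) (h : ∃ t, H.chi w v t ≠ 0) :
    H.IsEigenForm (H.form w v) (H.chi w v) ∧
      (H.basis w v : Y U → ℂ) =ᵐ[w.measure] H.form w v := by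
  classical
  rw [form, dif_pos h]
  exact (H.exists_eigenForm w ((H.basis w).orthonormal.ne_zero v) (H.opT_basis w v) h).choose_spec

open Classical in
/-- The eigenvalue of a label at a basis vector. -/
def labEig (l : Label F ι) (v : H.index w) : ℂ :=
  if ∃ t, H.chi w v t ≠ 0 then H.labVal l (H.form w v) else 0

theorem norm_labEig_le (l : Label F ι) (v : H.index w) : ‖H.labEig w l v‖ ≤ H.labNorm l := by
  classical
  rw [labEig]
  split
  · rename_i h
    exact (H.form_spec w v h).1.norm_labVal_le l
  · rw [norm_zero]
    exact H.labNorm_nonneg l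

theorem conj_labEig (l : Label F ι) (v : H.index w) :
    conj (H.labEig w l v) = H.labEig w (H.adjLabel l) v := by
  classical
  by_cases h : ∃ t, H.chi w v t ≠ 0
  · simp only [labEig, if_pos h, (H.form_spec w v h).1.conj_labVal]
  · simp only [labEig, if_neg h, map_zero]

/-- Prepending a label on the eigenbasis multiplies by the label eigenvalue. -/
theorem chi_step (l : Label F ι) (t : LipKernel F × ι) (v : H.index w) :
    H.chi w v (H.step l t) = H.labEig w l v * H.chi w v t := by
  classical
  by_cases h : ∃ t, H.chi w v t ≠ 0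
  · simp only [labEig, if_pos h, (H.form_spec w v h).1.chi_step]
  · push Not at h
    simp [h]

/-- The bounded operator of a label. -/
def labT (l : Label F ι) : Lp ℂ 2 w.measure →L[ℂ] Lp ℂ 2 w.measure :=
  diagOp (H.basis w) (H.norm_labEig_le w l)

theorem labT_basis (l : Label F ι) (v : H.index w) :
    H.labT w l (H.basis w v) = H.labEig w l v • H.basis w v :=
  diagOp_basis _ _ v

/-- The adjoint of the operator of a label is the operator of the adjoint label. -/
theorem adjoint_labT (l : Label F ι) :
    ContinuousLinearMap.adjoint (H.labT w l) = H.labT w (H.adjLabel l) :=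
  adjoint_diagOp _ _ _ (H.conj_labEig w l)

/-- A label times a test is a test. -/
theorem opT_step (l : Label F ι) (t : LipKernel F × ι) :
    H.opT w (H.step l t) = H.labT w l ∘L H.opT w t :=
  ext_basis (H.basis w) fun v => by
    rw [ContinuousLinearMap.comp_apply, opT_basis, opT_basis, map_smul, labT_basis, smul_smul,
      chi_step, mul_comm]

/-- Tests and labels. -/
def fullOp : (LipKernel F × ι) ⊕ Label F ι → Lp ℂ 2 w.measure →L[ℂ] Lp ℂ 2 w.measure
  | .inl t => H.opT w t
  | .inr l => H.labT w l

/-- The eigenvalue of a test or a label. -/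
def fullEig (v : H.index w) : (LipKernel F × ι) ⊕ Label F ι → ℂ
  | .inl t => H.chi w v t
  | .inr l => H.labEig w l v

theorem fullOp_basis (v : H.index w) : ∀ i : (LipKernel F × ι) ⊕ Label F ι,
    H.fullOp w i (H.basis w v) = H.fullEig w v i • H.basis w v
  | .inl t => H.opT_basis w v t
  | .inr l => H.labT_basis w l v

/-- Tests and labels form a compact family, so `Descent.exists_expansion` applies. -/
theorem compactFamily_full :
    Operators.CompactFamily (H.fullOp w)
      (Set.range (Sum.inl : LipKernel F × ι → (LipKernel F × ι) ⊕ Label F ι)) where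
  comm i j := ext_basis (H.basis w) fun v => by
    simp only [ContinuousLinearMap.comp_apply, fullOp_basis, map_smul, smul_smul, mul_comm]
  adj i := match i with
    | .inl t => ⟨.inl (H.adjTest t), (H.adjoint_opT w t).symm⟩
    | .inr l => ⟨.inr (H.adjLabel l), (H.adjoint_labT w l).symm⟩
  adjC := by
    rintro _ ⟨t, rfl⟩
    exact ⟨.inl (H.adjTest t), ⟨_, rfl⟩, (H.adjoint_opT w t).symm⟩
  compact := by
    rintro _ ⟨t, rfl⟩
    exact Operators.isCompactOperator_kernelCLM (H.isKernel w t)

variable {Λ : Type*} (lab : Λ → Label F ι)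

/-- The test obtained by prepending a word. -/
def wordTest : FreeMonoid Λ →* Function.End (LipKernel F × ι) :=
  FreeMonoid.lift fun a => H.step (lab a)

/-- A word of labels times a test is the operator of a single test. -/
theorem wordOp_comp_opT (s : FreeMonoid Λ) (t : LipKernel F × ι) :
    Descent.wordOp (H.fullOp w) (fun a => Sum.inr (lab a)) s ∘L H.opT w t =
      H.opT w (H.wordTest lab s t) := by
  induction s using FreeMonoid.recOn with
  | one => rw [map_one, map_one]; rfl
  | of_mul a s ih =>
    rw [map_mul, map_mul, Descent.wordOp, FreeMonoid.lift_eval_of, ← Descent.wordOp]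
    show (H.labT w (lab a) ∘L Descent.wordOp _ _ s) ∘L H.opT w t =
      H.opT w (H.step (lab a) (H.wordTest lab s t))
    rw [ContinuousLinearMap.comp_assoc, ih, opT_step]

/-! ### Arbitrary vectors and forms -/

/-- A vector with a nonzero eigenvalue for one test has a bounded continuous automorphic
representative, with the same eigenvalues for every test and label it is an eigenvector of. -/
theorem exists_rep {x : Lp ℂ 2 w.measure} {t : LipKernel F × ι} {α : ℂ} (hα : α ≠ 0)
    (hx : H.opT w t x = α • x) :
    ∃ φ : Y U → ℂ, Continuous φ ∧ IsAutomorphic φ ∧ (∃ M, ∀ y, ‖φ y‖ ≤ M) ∧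
      (x : Y U → ℂ) =ᵐ[w.measure] φ ∧ H.act t φ = (fun y => α * φ y) ∧
      (H.fn H.one).op φ = φ ∧
      (∀ s d, H.opT w s x = d • x → H.act s φ = fun y => d * φ y) ∧
      ∀ l c, H.labT w l x = c • x → H.labOp l φ = fun y => c * φ y := by
  set φ : Y U → ℂ := fun y => α⁻¹ * H.rep w t x y
  have hae : (x : Y U → ℂ) =ᵐ[w.measure] φ := by
    have h1 := H.coe_opT w t x
    rw [hx] at h1
    filter_upwards [h1, Lp.coeFn_smul α x] with y hy hy'
    rw [hy', Pi.smul_apply, smul_eq_mul] at hy
    simp only [φ, ← hy, inv_mul_cancel_left₀ hα]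
  have hc : Continuous φ := continuous_const.mul (H.continuous_rep w t x)
  have ha : IsAutomorphic φ := fun γ y => by simp only [φ, H.rep_isAutomorphic w t x γ y]
  have hrep : ∀ s, H.rep w s x = H.act s φ := fun s => H.rep_of_ae w s hae hc ha
  have h0 : H.act t φ = fun y => α * φ y := by
    rw [← hrep]
    funext y
    simp only [φ, mul_inv_cancel_left₀ hα]
  have key : ∀ s d, H.opT w s x = d • x → H.act s φ = fun y => d * φ y := by
    intro s d hs
    obtain ⟨e1, c1, a1⟩ := H.opT_of_ae w s hae hc ha
    have e : H.act s φ =ᵐ[w.measure] fun y => d * φ y := by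
      rw [hs] at e1
      filter_upwards [e1, Lp.coeFn_smul d x, hae] with y h1 h2 h3
      rw [← h1, h2, Pi.smul_apply, smul_eq_mul, h3]
    have h1 : H.act t (H.act s φ) = fun y => d * (α * φ y) := by
      funext z
      rw [act, ← integral_autKer_mul w t.1.toRadialKernel t.1.pointKer (fun P Q => rfl) _ c1 a1 z]
      have h2 : ∫ y, H.ker t (z, y) * φ y ∂w.measure = α * φ z := by
        rw [← congrFun h0 z, act,
          ← integral_autKer_mul w t.1.toRadialKernel t.1.pointKer (fun P Q => rfl) _ hc ha z]
        rfl
      rw [← h2, ← integral_const_mul]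
      refine integral_congr_ae ?_
      filter_upwards [e] with y hy
      rw [hy, mul_left_comm]
      rfl
    rw [H.act_comm t s hc, h0, H.act_const_mul] at h1
    funext y
    exact mul_left_cancel₀ hα ((congrFun h1 y).trans (mul_left_comm _ _ _))
  refine ⟨φ, hc, ha, H.eigen_bounded w t hα hc ha ((Lp.memLp x).ae_eq hae) fun z => ?_, hae, h0,
    ?_, key, fun l c hl => ?_⟩
  · rw [← congrFun h0 z, act,
      ← integral_autKer_mul w t.1.toRadialKernel t.1.pointKer (fun P Q => rfl) _ hc ha z]
    rfl
  · have e : φ = fun y => α⁻¹ * H.act t φ y := funext fun y => by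
      rw [h0, inv_mul_cancel_left₀ hα]
    have h1 : (H.fn H.one).op (H.act t φ) = H.act t φ := by
      rw [act, hecke_radial_comm _ _ (continuous_hecke_op _ hc), H.one_op]
    conv_lhs => rw [e, hecke_op_const_mul, h1, ← e]
  · have h1 := key (H.step l t) (α * c) (by
      rw [opT_step, ContinuousLinearMap.comp_apply, hx, map_smul, hl, smul_smul])
    rw [H.act_step l t hc, h0, H.labOp_const_mul] at h1
    funext y
    exact mul_left_cancel₀ hα ((congrFun h1 y).trans (mul_assoc _ _ _))

omit [IsTotallyComplex F] in
/-- A bounded continuous function is square integrable for the weighted measure. -/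
theorem memLp_of_bounded {φ : Y U → ℂ} (hφ : Continuous φ) (hb : ∃ M, ∀ y, ‖φ y‖ ≤ M) :
    MemLp φ 2 w.measure :=
  let ⟨M, hM⟩ := hb
  MemLp.of_bound hφ.aestronglyMeasurable M (Filter.Eventually.of_forall hM)

variable {φ : Y U → ℂ} (hφ : Continuous φ) (haut : IsAutomorphic φ) (hb : ∃ M, ∀ y, ‖φ y‖ ≤ M)
include hφ haut

/-- An eigenfunction of a test is an eigenvector of its operator. -/
theorem opT_toLp {t : LipKernel F × ι} {d : ℂ} (h : H.act t φ = fun y => d * φ y) :
    H.opT w t ((memLp_of_bounded w hφ hb).toLp φ) = d • (memLp_of_bounded w hφ hb).toLp φ := by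
  have hae := MemLp.coeFn_toLp (memLp_of_bounded w hφ hb)
  obtain ⟨e1, -, -⟩ := H.opT_of_ae w t hae hφ haut
  refine Lp.ext ?_
  filter_upwards [e1, Lp.coeFn_smul d ((memLp_of_bounded w hφ hb).toLp φ), hae] with y h1 h2 h3
  rw [h1, h2, Pi.smul_apply, smul_eq_mul, h3, h]

/-- An eigenfunction of a label is an eigenvector of its operator. -/
theorem labT_toLp {t : LipKernel F × ι} {α : ℂ} (hα : α ≠ 0)
    (ht : H.act t φ = fun y => α * φ y) {l : Label F ι} {c : ℂ}
    (hl : H.labOp l φ = fun y => c * φ y) :
    H.labT w l ((memLp_of_bounded w hφ hb).toLp φ) = c • (memLp_of_bounded w hφ hb).toLp φ := by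
  have h1 : H.act (H.step l t) φ = fun y => (α * c) * φ y := by
    rw [H.act_step l t hφ, ht, H.labOp_const_mul, hl]
    funext y
    ring
  have h2 := H.opT_toLp w hφ haut hb h1
  rw [opT_step, ContinuousLinearMap.comp_apply, H.opT_toLp w hφ haut hb ht, map_smul,
    ← smul_smul] at h2
  exact smul_right_injective _ hα h2

omit haut hb [IsTotallyComplex F] in
/-- Eigenfunctions with the same vector are equal. -/
theorem eq_of_toLp_eq {ψ : Y U → ℂ} (haut : IsAutomorphic φ) (hψ : Continuous ψ)
    (haut' : IsAutomorphic ψ) (he : φ =ᵐ[w.measure] ψ) {t : LipKernel F × ι} {α : ℂ} (hα : α ≠ 0)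
    (hb : ∃ M, ∀ y, ‖φ y‖ ≤ M) (h : H.act t φ = fun y => α * φ y)
    (h' : H.act t ψ = fun y => α * ψ y) : φ = ψ := by
  have hae := MemLp.coeFn_toLp (memLp_of_bounded w hφ hb)
  have e : H.act t φ = H.act t ψ := by
    rw [← H.rep_of_ae w t hae hφ haut, ← H.rep_of_ae w t (hae.trans he) hψ haut']
  rw [h, h'] at e
  exact funext fun y => mul_left_cancel₀ hα (congrFun e y)

end HeckeFamily

end Fermat.Agent.LT.Spectral
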