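import Fermat.Agent.LT.Spectral.Action
import Mathlib.MeasureTheory.Integral.Bochner.SumMeasure

/-!
# The measure `weight * yVol` and the unfolding of automorphic kernels
-/

noncomputable section

open MeasureTheory Topology
open scoped NumberField ENNReal
open NumberField (InfinitePlace)

namespace Fermat.Agent.LT.Spectral

variable {F : Type*} [Field F] [NumberField F]

/-- A measurable partition of unity of finite mass. -/
structure Weight (U : Level F) extends PartitionOfUnity U where
  measurable : Measurable weight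
  integrable : Integrable weight (yVol U)

variable {U : Level F}

/-- The measure `weight * yVol`, a finite measure carrying `L²(PGL₂(F) \ Y)`. -/
def Weight.measure (w : Weight U) : Measure (Y U) :=
  (yVol U).withDensity fun y => ENNReal.ofReal (w.weight y)

instance Weight.isFiniteMeasure (w : Weight U) : IsFiniteMeasure w.measure :=
  isFiniteMeasure_withDensity_ofReal w.integrable.2

theorem Weight.integral_eq {E : Type*} [NormedAddCommGroup E] [NormedSpace ℝ E] (w : Weight U)
    (f : Y U → E) : ∫ y, f y ∂w.measure = ∫ y, w.weight y • f y ∂yVol U := by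
  rw [Weight.measure, integral_withDensity_eq_integral_toReal_smul w.measurable.ennreal_ofReal
    (Filter.Eventually.of_forall fun _ => ENNReal.ofReal_lt_top)]
  simp only [ENNReal.toReal_ofReal (w.nonneg _)]

/-- Integration against the weighted measure. -/
theorem Weight.lintegral_eq (w : Weight U) {f : Y U → ℝ≥0∞} (hf : Measurable f) :
    ∫⁻ y, f y ∂w.measure = ∫⁻ y, ENNReal.ofReal (w.weight y) * f y ∂yVol U :=
  lintegral_withDensity_eq_lintegral_mul _ w.measurable.ennreal_ofReal hf

/-- The volume on `Y` is finite on compact sets. -/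
instance yVol_finiteOnCompacts (U : Level F) : IsFiniteMeasureOnCompacts (yVol U) := by
  constructor
  intro K hK
  refine lt_of_le_of_lt (measure_mono (t := (Prod.fst '' K) ×ˢ (Prod.snd '' K))
    fun y hy => ⟨⟨y, hy, rfl⟩, ⟨y, hy, rfl⟩⟩) ?_
  have h1 : IsCompact (Prod.fst '' K) := hK.image continuous_fst
  have h2 : IsCompact (Prod.snd '' K) := hK.image continuous_snd
  rw [yVol, Measure.prod_prod]
  exact ENNReal.mul_lt_top h1.measure_lt_top
    (Measure.count_apply_lt_top.mpr h2.finite_of_discrete)

/-- Unfolding the sum over `PGL₂(F)`. -/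
theorem integral_weight_tsum (w : Weight U) {G : Y U → ℂ} (hG : Integrable G (yVol U)) :
    ∫ y, w.weight y • ∑' c : PGLIndex F, G (c • y) ∂yVol U = ∫ y, G y ∂yVol U := by
  have hmp := measurePreserving_pglSmul U
  have hemb := Lift.measurableEmbedding_smul' hmp
  set f : PGLIndex F → Y U → ℂ := fun c y => w.weight y • G (c • y)
  set f' : PGLIndex F → Y U → ℂ := fun c y => w.weight (c⁻¹ • y) • G y
  have hGc : ∀ c : PGLIndex F, AEStronglyMeasurable (fun y => G (c • y)) (yVol U) := fun c =>
    hG.1.comp_measurePreserving (hmp c)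
  have hfm : ∀ c, AEStronglyMeasurable (f c) (yVol U) := fun c =>
    w.measurable.aestronglyMeasurable.smul (hGc c)
  have hf'm : ∀ c, AEStronglyMeasurable (f' c) (yVol U) := fun c =>
    (w.measurable.comp (hmp c⁻¹).measurable).aestronglyMeasurable.smul hG.1
  have hsum : ∀ y, ∑' c : PGLIndex F, ENNReal.ofReal (w.weight (c⁻¹ • y)) = 1 := fun y =>
    ((Equiv.inv (PGLIndex F)).tsum_eq fun c => ENNReal.ofReal (w.weight (c • y))).trans
      (w.isPartition.tsum_ofReal y)
  have hff' : ∀ c y, f c y = f' c (c • y) := fun c y => by simp only [f, f', inv_smul_smul]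
  have hfin : ∑' c, ∫⁻ y, ‖f' c y‖ₑ ∂yVol U ≠ ∞ := by
    rw [← lintegral_tsum fun c => (hf'm c).enorm]
    refine ne_top_of_le_ne_top hG.2.ne (le_of_eq (lintegral_congr fun y => ?_))
    simp only [f', enorm_smul, Real.enorm_of_nonneg (w.nonneg _)]
    rw [ENNReal.tsum_mul_right, hsum, one_mul]
  have hfin0 : ∑' c, ∫⁻ y, ‖f c y‖ₑ ∂yVol U ≠ ∞ := by
    refine ne_top_of_le_ne_top hfin (le_of_eq (tsum_congr fun c => ?_))
    simp only [hff']
    exact (hmp c).lintegral_comp_emb (hemb c) fun y => ‖f' c y‖ₑ
  calc ∫ y, w.weight y • ∑' c : PGLIndex F, G (c • y) ∂yVol U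
      = ∫ y, ∑' c, f c y ∂yVol U := integral_congr_ae (Filter.Eventually.of_forall fun y =>
        (tsum_const_smul'' _).symm)
    _ = ∑' c, ∫ y, f c y ∂yVol U := integral_tsum hfm hfin0
    _ = ∑' c, ∫ y, f' c y ∂yVol U := tsum_congr fun c => by
        simp only [hff']
        exact (hmp c).integral_comp (hemb c) (f' c)
    _ = ∫ y, ∑' c, f' c y ∂yVol U := (integral_tsum hf'm hfin).symm
    _ = ∫ y, G y ∂yVol U := by
        refine integral_congr_ae (Filter.Eventually.of_forall fun y => ?_)
        simp only [f']
        have h : HasSum (fun c : PGLIndex F => w.weight (c⁻¹ • y)) 1 :=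
          ((Equiv.inv (PGLIndex F)).hasSum_iff
            (f := fun c : PGLIndex F => w.weight (c • y))).mpr (w.hasSum_pgl y)
        rw [(h.smul_const (G y)).tsum_eq, one_smul]

/-- The integral of a function with finitely many cosets in its support. -/
theorem integral_yVol_of_finite {G : Y U → ℂ} (hG : Integrable G (yVol U))
    (T : Finset (GLFin F ⧸ U.toSubgroup)) (h : ∀ y, y.2 ∉ T → G y = 0) :
    ∫ y, G y ∂yVol U = ∫ P, ∑ b ∈ T, G (P, b) ∂infVol F := by
  rw [yVol, integral_prod _ hG]
  refine integral_congr_ae ?_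
  filter_upwards [(hG : Integrable G ((infVol F).prod Measure.count)).prod_right_ae] with P hP
  rw [integral_countable hP, tsum_eq_sum (s := T) fun b hb => by rw [h (P, b) hb, smul_zero]]
  refine Finset.sum_congr rfl fun b _ => ?_
  rw [measureReal_def, Measure.count_singleton, ENNReal.toReal_one, one_smul]

/-- **Unfolding:** the automorphic kernel acts on automorphic functions as `k.op ∘ h.op`. -/
theorem integral_autKer_mul (w : Weight U) (k : RadialKernel F) (K : Kernel.PointKer F)
    (hK : ∀ P Q, K.toFun P Q = (k.weight P Q : ℂ)) (h : HeckeFn U) {Φ : Y U → ℂ}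
    (hΦ : Continuous Φ) (haut : IsAutomorphic Φ) (x : Y U) :
    ∫ y, Kernel.autKer K h x y * Φ y ∂w.measure = k.op (h.op Φ) x := by
  set T := (Kernel.finite_kernel_support h x.2).toFinset
  obtain ⟨C, hC, hCz⟩ := H3.exists_compact_prod_profile k.hasCompactSupport
    (isCompact_singleton (x := x.1))
  set G : Y U → ℂ := fun y => Kernel.pairKer K h x y * Φ y
  have hGc : Continuous G :=
    ((Kernel.continuous_pairKer K h).comp (Continuous.prodMk_right x)).mul hΦ
  have hGs : HasCompactSupport G := by
    refine HasCompactSupport.intro (hC.prod T.finite_toSet.isCompact) fun y hy => ?_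
    simp only [G, Kernel.pairKer]
    by_cases hQ : y.1 ∈ C
    · have hb : y.2 ∉ T := fun hb => hy ⟨hQ, hb⟩
      rw [Set.Finite.mem_toFinset, Set.mem_ofPred_eq, not_not] at hb
      rw [hb, mul_zero, zero_mul]
    · rw [hK, show k.weight x.1 y.1 = 0 from hCz x.1 rfl y.1 hQ, Complex.ofReal_zero, zero_mul,
        zero_mul]
  have hGi : Integrable G (yVol U) := hGc.integrable_of_hasCompactSupport hGs
  have hsum : ∀ y, Kernel.autKer K h x y * Φ y = ∑' c : PGLIndex F, G (c • y) := by
    intro y
    rw [Kernel.autKer, ← tsum_mul_right]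
    exact tsum_congr fun c => by simp only [G, haut.pgl c y]
  rw [w.integral_eq]
  simp only [hsum]
  rw [integral_weight_tsum w hGi, integral_yVol_of_finite hGi T fun y hy => ?_]
  · simp only [RadialKernel.op, hecke_op_eq_sum]
    refine integral_congr_ae (Filter.Eventually.of_forall fun P => ?_)
    show ∑ b ∈ T, G (P, b) = k.weight x.1 P • ∑ b ∈ T, h.kernel x.2 b * Φ (P, b)
    rw [Finset.smul_sum]
    refine Finset.sum_congr rfl fun b _ => ?_
    simp only [G, Kernel.pairKer, hK, Complex.real_smul]
    ring
  · rw [Set.Finite.mem_toFinset, Set.mem_ofPred_eq, not_not] at hy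
    simp only [G, Kernel.pairKer, hy, mul_zero, zero_mul]

end Fermat.Agent.LT.Spectral
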