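import Fermat.Agent.LT.Spectral.Side
import Fermat.Agent.LT.Rigidity.GaloisCusp
import Fermat.Agent.LT.CuspType.Galois
import Fermat.Agent.LT.Geometric.Term

/-!
# An invariant weight for a field automorphism

A field automorphism `σ` with `σ ^ 3 = 1` acts on `Y`; averaging a weight over its powers gives a
weight, and hence a finite measure on `Y`, invariant under it.
-/


noncomputable section

open MeasureTheory Topology Function
open scoped NumberField ComplexConjugate
open NumberField (InfinitePlace IsTotallyComplex)

namespace Fermat.Agent.LT.Spectral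

variable {F : Type*} [Field F] [NumberField F] {U : Level F} (σ : F ≃+* F)
  (hU : ∀ g ∈ U.toSubgroup, glFinMap (σ : F →+* F) g ∈ U.toSubgroup)

omit [NumberField F] in
theorem cube_apply (hσ : σ ^ 3 = 1) (x : F) : σ (σ (σ x)) = x :=
  RingEquiv.congr_fun hσ x

omit [NumberField F] in
theorem galInf_cube (hσ : σ ^ 3 = 1) (P : InfinitePlace F → H3) :
    galInf σ (galInf σ (galInf σ P)) = P := by
  rw [Geometric.galInf_trans, Geometric.galInf_trans,
    show σ.trans (σ.trans σ) = RingEquiv.refl F from RingEquiv.ext fun x => cube_apply σ hσ x,
    Geometric.galInf_refl]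

omit [NumberField F] in
theorem finMap_cube (hσ : σ ^ 3 = 1) (x : FinAdele F) :
    finMap (σ : F →+* F) (finMap (σ : F →+* F) (finMap (σ : F →+* F) x)) = x := by
  induction x using TensorProduct.induction_on with
  | zero => simp
  | tmul a z =>
    show σ (σ (σ a)) ⊗ₜ[ℤ] z = a ⊗ₜ[ℤ] z
    rw [cube_apply σ hσ]
  | add a b ha hb => simp only [map_add, ha, hb]

theorem galFin_cube (hσ : σ ^ 3 = 1) (c : GLFin F ⧸ U.toSubgroup) :
    galFin σ U hU (galFin σ U hU (galFin σ U hU c)) = c := by
  refine QuotientGroup.induction_on c fun g => ?_
  simp only [galFin_mk]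
  congr 1
  exact Units.ext (Matrix.ext fun i j => finMap_cube σ hσ (g.val i j))

theorem galY_cube (hσ : σ ^ 3 = 1) (y : Y U) :
    galY σ U hU (galY σ U hU (galY σ U hU y)) = y :=
  Prod.ext (galInf_cube σ hσ y.1) (galFin_cube σ hU hσ y.2)

theorem galFin_bijective_of_cube (hσ : σ ^ 3 = 1) : Bijective (galFin σ U hU) :=
  bijective_iff_has_inverse.2 ⟨fun c => galFin σ U hU (galFin σ U hU c),
    fun c => galFin_cube σ hU hσ c, fun c => galFin_cube σ hU hσ c⟩

theorem continuous_galY : Continuous (galY σ U hU) :=
  ((Geometric.continuous_galInf σ).comp continuous_fst).prodMk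
    ((continuous_of_discreteTopology (f := galFin σ U hU)).comp continuous_snd)

/-- The automorphism preserves the invariant measure of `Y`. -/
theorem measurePreserving_galY (hb : Bijective (galFin σ U hU)) :
    MeasurePreserving (galY σ U hU) (yVol U) (yVol U) := by
  refine (Descent.measurePreserving_galInf σ).prod (μd := Measure.count) ⟨measurable_from_top, ?_⟩
  ext s hs
  rw [Measure.map_apply measurable_from_top hs, Measure.count_apply (measurable_from_top hs),
    Measure.count_apply hs, ← hb.injective.encard_image, Set.image_preimage_eq s hb.surjective]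

/-! ### An invariant weight -/

/-- An automorphism of order three as a permutation of `PGL₂(F)`. -/
def pglAutEquiv (hσ : σ ^ 3 = 1) : PGLIndex F ≃ PGLIndex F where
  toFun := Geometric.pglAut σ
  invFun g := Geometric.pglAut σ (Geometric.pglAut σ g)
  left_inv := Geometric.pglAut_iterate hσ
  right_inv := Geometric.pglAut_iterate hσ

/-- The pullback of a partition of unity by the Galois action is one. -/
theorem hasSum_weight_galY (hσ : σ ^ 3 = 1) (π : PartitionOfUnity U) (y : Y U) :
    HasSum (fun c : PGLIndex F => π.weight (galY σ U hU (c • y))) 1 := by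
  let e := pglAutEquiv σ hσ
  simp only [Geometric.galY_pgl_smul]
  exact (e.hasSum_iff (f := fun c => π.weight (c • galY σ U hU y))).mpr (π.hasSum_pgl _)

/-- The average of the three pullbacks of a weight. -/
def Weight.galAverage (hσ : σ ^ 3 = 1) (w : Weight U) : Weight U where
  weight y := (w.weight y + w.weight (galY σ U hU y) + w.weight (galY σ U hU (galY σ U hU y))) / 3
  nonneg y := by
    have h1 := w.nonneg y
    have h2 := w.nonneg (galY σ U hU y)
    have h3 := w.nonneg (galY σ U hU (galY σ U hU y))
    positivity
  hasSum y s hs := by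
    have hc : ∀ c, s c • y = c • y := fun c => by
      conv_rhs => rw [← hs c]
      rfl
    have h1 := w.hasSum_pgl y
    have h2 := hasSum_weight_galY σ hU hσ w.toPartitionOfUnity y
    have h3 : HasSum (fun c : PGLIndex F => w.weight (galY σ U hU (galY σ U hU (c • y)))) 1 := by
      let e := pglAutEquiv σ hσ
      simp only [Geometric.galY_pgl_smul σ hU]
      exact (e.hasSum_iff (f := fun c => w.weight (Geometric.pglAut σ c •
        galY σ U hU (galY σ U hU y)))).mpr
        ((e.hasSum_iff (f := fun c => w.weight (c • galY σ U hU (galY σ U hU y)))).mpr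
          (w.hasSum_pgl _))
    have h := ((h1.add h2).add h3).div_const 3
    norm_num at h
    simpa only [hc] using h
  measurable := by
    have hm := (continuous_galY σ hU).measurable
    exact ((w.measurable.add (w.measurable.comp hm)).add
      (w.measurable.comp (hm.comp hm))).div_const 3
  integrable := by
    have hp := measurePreserving_galY σ hU (galFin_bijective_of_cube σ hU hσ)
    exact ((w.integrable.add (hp.integrable_comp_of_integrable w.integrable)).add
      ((hp.comp hp).integrable_comp_of_integrable w.integrable)).div_const 3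

/-- The average of a weight over the Galois action is invariant. -/
theorem Weight.galAverage_galY (hσ : σ ^ 3 = 1) (w : Weight U) (y : Y U) :
    (w.galAverage σ hU hσ).weight (galY σ U hU y) = (w.galAverage σ hU hσ).weight y := by
  show (_ + _ + _) / 3 = (_ + _ + _) / 3
  rw [galY_cube σ hU hσ]
  ring

/-- An invariant weight gives an invariant measure. -/
theorem Weight.measurePreserving_galY (w : Weight U) (hb : Bijective (galFin σ U hU))
    (hw : ∀ y, w.weight (galY σ U hU y) = w.weight y) :
    MeasurePreserving (galY σ U hU) w.measure w.measure := by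
  have hp := Spectral.measurePreserving_galY σ hU hb
  refine ⟨hp.measurable, ?_⟩
  ext s hs
  rw [Measure.map_apply hp.measurable hs, Weight.measure, withDensity_apply _ hs,
    withDensity_apply _ (hp.measurable hs),
    ← hp.setLIntegral_comp_preimage hs w.measurable.ennreal_ofReal]
  simp only [hw]

/-- An invariant weight exists. -/
theorem exists_invariant_weight [IsTotallyComplex F] (hσ : σ ^ 3 = 1) :
    ∃ w : Weight U, (∀ y, w.weight (galY σ U hU y) = w.weight y) ∧
      MeasurePreserving (galY σ U hU) w.measure w.measure := by
  obtain ⟨R, A, B, b, P, -, hm, -, hint⟩ := Reduction.exists_partition_integrable U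
  let w : Weight U := (Weight.mk P hm hint).galAverage σ hU hσ
  exact ⟨w, (Weight.mk P hm hint).galAverage_galY σ hU hσ,
    w.measurePreserving_galY σ hU (galFin_bijective_of_cube σ hU hσ)
      ((Weight.mk P hm hint).galAverage_galY σ hU hσ)⟩

end Fermat.Agent.LT.Spectral

end
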