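import Fermat.Agent.LT.Kernel.AutSum
import Fermat.Agent.LT.H3.RadialEigen
import Mathlib.MeasureTheory.Integral.Pi
import Mathlib.MeasureTheory.Integral.Prod

/-!
# Radial and Hecke operators on continuous functions

Both preserve continuity, commute, and radial operators compose by convolution of profiles.
-/

noncomputable section

open MeasureTheory Topology
open scoped NumberField
open NumberField (InfinitePlace)

namespace Fermat.Agent.LT.Spectral

variable {F : Type*} [Field F] [NumberField F] {U : Level F}

/-- The volume at the infinite places is finite on compact sets. -/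
instance infVol_finiteOnCompacts : IsFiniteMeasureOnCompacts (infVol F) := by
  unfold infVol
  constructor
  intro K hK
  have hs : ∀ w : InfinitePlace F, IsCompact ((fun P : InfinitePlace F → H3 => P w) '' K) :=
    fun w => hK.image (continuous_apply w)
  refine lt_of_le_of_lt (measure_mono (t := Set.univ.pi fun w => (fun P : InfinitePlace F → H3 =>
    P w) '' K) fun P hP w _ => ⟨P, hP, rfl⟩) ?_
  rw [Measure.pi_pi]
  exact ENNReal.prod_lt_top fun w _ => (hs w).measure_lt_top

/-- A function on `Y` is continuous if it is so on every slice. -/
theorem continuous_of_slices {β : Type*} [TopologicalSpace β] {ψ : Y U → β}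
    (h : ∀ c, Continuous fun P => ψ (P, c)) : Continuous ψ :=
  continuous_prod_of_discrete_right.mpr h

/-- The slices of a continuous function are continuous. -/
theorem continuous_slice {β : Type*} [TopologicalSpace β] {ψ : Y U → β} (h : Continuous ψ)
    (c : GLFin F ⧸ U.toSubgroup) : Continuous fun P => ψ (P, c) :=
  h.comp (Continuous.prodMk_left c)

/-! ### Radial kernels -/

/-- The weight of a radial kernel is the product of its profiles. -/
theorem weight_eq (k : RadialKernel F) (P Q : InfinitePlace F → H3) :
    k.weight P Q = ∏ w, k.profile w (H3.cdist (P w) (Q w)) := rfl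

/-- The weight of a radial kernel is symmetric. -/
theorem weight_comm (k : RadialKernel F) (P Q : InfinitePlace F → H3) :
    k.weight P Q = k.weight Q P :=
  Finset.prod_congr rfl fun w _ => by rw [H3.cdist_comm]

/-- A radial weight times a continuous function is integrable. -/
theorem integrable_weight_smul (k : RadialKernel F) {g : (InfinitePlace F → H3) → ℂ}
    (hg : Continuous g) (P : InfinitePlace F → H3) :
    Integrable (fun Q => k.weight P Q • g Q) (infVol F) :=
  H3.integrable_prod_profile_smul k.continuous k.hasCompactSupport P hg

/-- The weight of a radial kernel is jointly continuous. -/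
theorem continuous_weight₂ (k : RadialKernel F) :
    Continuous fun p : (InfinitePlace F → H3) × (InfinitePlace F → H3) => k.weight p.1 p.2 :=
  H3.continuous_prod_profile k.continuous

/-- Radial operators commute with scalars. -/
theorem radial_op_const_mul (k : RadialKernel F) (c : ℂ) (ψ : Y U → ℂ) :
    k.op (fun y => c * ψ y) = fun y => c * k.op ψ y := by
  funext y
  simp only [RadialKernel.op, Complex.real_smul]
  rw [← integral_const_mul]
  congr 1
  funext Q
  ring

/-- Convolution of kernels, profile by profile. -/
def convKernel (k l : RadialKernel F) : RadialKernel F where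
  profile w := H3.conv (k.profile w) (l.profile w)
  continuous w := H3.continuous_conv (k.continuous w) (l.continuous w) (l.hasCompactSupport w)
  hasCompactSupport w := H3.hasCompactSupport_conv (k.hasCompactSupport w) (l.hasCompactSupport w)

theorem convKernel_weight_comm (k l : RadialKernel F) (P Q : InfinitePlace F → H3) :
    (convKernel k l).weight P Q = (convKernel l k).weight P Q :=
  Finset.prod_congr rfl fun _ _ => H3.conv_comm _ _ _ _

/-- The composite of two radial operators has as weight the convolution. -/
theorem integral_weight_mul_weight (k l : RadialKernel F) (P R : InfinitePlace F → H3) :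
    ∫ Q, k.weight P Q * l.weight Q R ∂infVol F = (convKernel k l).weight P R := by
  simp only [weight_eq, ← Finset.prod_mul_distrib, infVol]
  rw [integral_fintype_prod_eq_prod
    (f := fun w Q => k.profile w (H3.cdist (P w) Q) * l.profile w (H3.cdist Q (R w)))]
  exact Finset.prod_congr rfl fun w _ => H3.integral_mul_eq_conv _ _ _ _

/-- Radial operators compose by convolution. -/
theorem radial_op_op (k l : RadialKernel F) {ψ : Y U → ℂ} (hψ : Continuous ψ) :
    k.op (l.op ψ) = (convKernel k l).op ψ := by
  funext y
  obtain ⟨P, c⟩ := y
  obtain ⟨C₁, hC₁, h₁⟩ := H3.exists_compact_prod_profile k.hasCompactSupport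
    (isCompact_singleton (x := P))
  obtain ⟨C₂, hC₂, h₂⟩ := H3.exists_compact_prod_profile l.hasCompactSupport hC₁
  calc k.op (l.op ψ) (P, c)
      = ∫ Q, ∫ R, (k.weight P Q * l.weight Q R) • ψ (R, c) ∂infVol F ∂infVol F := by
        simp only [RadialKernel.op, mul_smul, integral_smul]
    _ = ∫ R, ∫ Q, (k.weight P Q * l.weight Q R) • ψ (R, c) ∂infVol F ∂infVol F := by
        refine integral_integral_swap_of_hasCompactSupport ?_ ?_
        · exact (((continuous_weight₂ k).comp (continuous_const.prodMk continuous_fst)).mul
            (continuous_weight₂ l)).smul ((continuous_slice hψ c).comp continuous_snd)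
        · refine HasCompactSupport.intro (hC₁.prod hC₂) fun q hq => ?_
          obtain ⟨Q, R⟩ := q
          simp only [Function.uncurry_apply_pair]
          by_cases hQ : Q ∈ C₁
          · rw [show l.weight Q R = 0 from h₂ Q hQ R fun h => hq ⟨hQ, h⟩, mul_zero, zero_smul]
          · rw [show k.weight P Q = 0 from h₁ P rfl Q hQ, zero_mul, zero_smul]
    _ = (convKernel k l).op ψ (P, c) := by
        simp only [RadialKernel.op, integral_smul_const, integral_weight_mul_weight]

/-- Radial operators commute. -/
theorem radial_op_comm (k l : RadialKernel F) {ψ : Y U → ℂ} (hψ : Continuous ψ) :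
    k.op (l.op ψ) = l.op (k.op ψ) := by
  rw [radial_op_op k l hψ, radial_op_op l k hψ]
  funext y
  simp only [RadialKernel.op, convKernel_weight_comm k l]

/-! ### Hecke functions -/

/-- A Hecke operator is a finite sum over cosets. -/
theorem hecke_op_eq_sum (h : HeckeFn U) (ψ : Y U → ℂ) (y : Y U) :
    h.op ψ y = ∑ b ∈ (Kernel.finite_kernel_support h y.2).toFinset,
      h.kernel y.2 b * ψ (y.1, b) := by
  refine finsum_eq_sum_of_support_subset _ fun b hb => ?_
  rw [Set.Finite.coe_toFinset]
  exact left_ne_zero_of_mul (Function.mem_support.mp hb)

/-- Hecke operators preserve continuity. -/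
theorem continuous_hecke_op (h : HeckeFn U) {ψ : Y U → ℂ} (hψ : Continuous ψ) :
    Continuous (h.op ψ) := by
  refine continuous_of_slices fun c => ?_
  simp only [hecke_op_eq_sum]
  have hb : ∀ b, Continuous fun P => h.kernel c b * ψ (P, b) := fun b =>
    continuous_const.mul (continuous_slice hψ b)
  show Continuous fun P => ∑ b ∈ (Kernel.finite_kernel_support h c).toFinset,
    h.kernel c b * ψ (P, b)
  exact continuous_finsetSum _ fun b _ => hb b

/-- Hecke operators commute with scalars. -/
theorem hecke_op_const_mul (h : HeckeFn U) (c : ℂ) (ψ : Y U → ℂ) :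
    h.op (fun y => c * ψ y) = fun y => c * h.op ψ y := by
  funext y
  simp only [hecke_op_eq_sum, Finset.mul_sum, mul_left_comm]

/-- Hecke and radial operators commute. -/
theorem hecke_radial_comm (h : HeckeFn U) (k : RadialKernel F) {ψ : Y U → ℂ} (hψ : Continuous ψ) :
    h.op (k.op ψ) = k.op (h.op ψ) := by
  funext y
  simp only [hecke_op_eq_sum, RadialKernel.op, ← integral_const_mul, Finset.smul_sum]
  have hb : ∀ b, Continuous fun P => h.kernel y.2 b * ψ (P, b) := fun b =>
    continuous_const.mul (continuous_slice hψ b)
  refine ((integral_finsetSum _ fun b _ => integrable_weight_smul k (hb b) y.1).trans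
    (Finset.sum_congr rfl fun b _ => ?_)).symm
  simp only [mul_smul_comm]

end Fermat.Agent.LT.Spectral
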