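import Fermat.Agent.LT.Spectral.Operator

/-!
# Boundedness of the eigenfunctions

With `a = gainExp < 2` and `‖K (x, y)‖ ≤ C h(x) ^ s h(y) ^ (a - s)` for every `s ∈ [0, a]`, the
eigen relation improves a bound `h ^ b`, `b < 2`, by `(2 - a) / 2` until it becomes bounded.
-/

noncomputable section

open MeasureTheory Topology
open scoped NumberField ComplexConjugate ENNReal
open NumberField (InfinitePlace IsTotallyComplex)

namespace Fermat.Agent.LT.Spectral.HeckeFamily

variable {F : Type*} [Field F] [NumberField F] [IsTotallyComplex F] {U : Level F} {ι : Type*}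
  (H : HeckeFamily U ι) (w : Weight U)

/-- An exponent that can be lowered from `e` to any `s ∈ [0, a]` with `a - s + e < 2` can be
lowered from `a` to `0`. -/
private theorem exponent_descent {P : ℝ → Prop} {a : ℝ} (ha1 : 1 ≤ a) (ha2 : a < 2)
    (step : ∀ e s, P e → 0 ≤ s → s ≤ a → a - s + e < 2 → P s) (hP : P a) : P 0 := by
  set δ := (2 - a) / 2 with hδ
  have hδpos : 0 < δ := by linarith
  have main : ∀ n : ℕ, ∀ e : ℝ, 0 ≤ e → e ≤ 2 - δ → e ≤ n * δ → P e → P 0 := by
    intro n
    induction n with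
    | zero =>
      intro e he0 _ hen hPe
      have : e = 0 := le_antisymm (by simpa using hen) he0
      exact this ▸ hPe
    | succ n ih =>
      intro e he0 he2 hen hPe
      by_cases hlt : a + e < 2
      · exact step e 0 hPe le_rfl (by linarith) (by linarith)
      · refine ih (e - δ) (by linarith) (by linarith) ?_
          (step e (e - δ) hPe (by linarith) (by linarith) (by linarith))
        push_cast at hen
        linarith
  obtain ⟨n, hn⟩ := exists_nat_ge (a / δ)
  exact main n a (by linarith) (by linarith) ((div_le_iff₀ hδpos).mp hn) hP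

/-- A square-integrable automorphic eigenfunction of a test with nonzero eigenvalue is bounded. -/
theorem eigen_bounded (t : LipKernel F × ι) {lam : ℂ} (hlam : lam ≠ 0) {φ : Y U → ℂ}
    (hφ : Continuous φ) (haut : IsAutomorphic φ) (hL2 : MemLp φ 2 w.measure)
    (heig : ∀ x, ∫ y, H.ker t (x, y) * φ y ∂w.measure = lam * φ x) :
    ∃ M : ℝ, ∀ x, ‖φ x‖ ≤ M := by
  obtain ⟨R, A, B, b₀, hb₀, hcov⟩ := Reduction.exists_siegel U
  set S := Reduction.siegel U R A B b₀
  obtain ⟨C, hC0, hC⟩ := H.exists_split_bound t R A B hb₀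
  have hS : MeasurableSet S := Reduction.measurableSet_siegel R A B b₀
  set a := Kernel.gainExp F with ha_def
  have ha1 : 1 ≤ a := Kernel.one_le_gainExp F
  have ha2 : a < 2 := Kernel.gainExp_lt_two F
  have hpos : ∀ y : Y U, 0 < Reduction.height y := Reduction.height_pos
  have hm : ∀ x, Measurable fun y => ENNReal.ofReal (‖H.ker t (x, y)‖ * ‖φ y‖) := fun x =>
    (((H.measurable_ker t).comp measurable_prodMk_left).norm.mul
      hφ.measurable.norm).ennreal_ofReal
  have habs : ∀ x, ENNReal.ofReal (‖lam‖ * ‖φ x‖) ≤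
      ∫⁻ y, ENNReal.ofReal (‖H.ker t (x, y)‖ * ‖φ y‖) ∂w.measure := fun x => by
    rw [← norm_mul, ← heig x, ofReal_norm]
    refine (enorm_integral_le_lintegral_enorm _).trans_eq (lintegral_congr fun y => ?_)
    rw [← ofReal_norm, norm_mul]
  have hfin : ∀ e : ℝ, e < 2 →
      ∫⁻ y in S, ENNReal.ofReal (Reduction.height y ^ e) ∂yVol U < ⊤ := fun e he =>
    Integrable.lintegral_lt_top
      (Reduction.integrableOn_siegel_height (U := U) (α := e) he R A B hb₀)
  have hmeas : Measurable fun y : Y U => Reduction.height y := Finset.measurable_prod _ fun v _ =>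
    H3.continuous_tc.measurable.comp ((measurable_pi_apply v).comp measurable_fst)
  have toReal : ∀ {x : Y U} {D : ℝ≥0∞}, D < ⊤ → ∀ {X : ℝ}, 0 ≤ X →
      ENNReal.ofReal (‖lam‖ * ‖φ x‖) ≤ ENNReal.ofReal X * D →
      ‖φ x‖ ≤ ‖lam‖⁻¹ * D.toReal * X := fun {x D} hD {X} hX hle => by
    have h1 := ENNReal.toReal_mono (ENNReal.mul_ne_top ENNReal.ofReal_ne_top hD.ne) hle
    rw [ENNReal.toReal_mul, ENNReal.toReal_ofReal (by positivity), ENNReal.toReal_ofReal hX] at h1
    rw [mul_assoc, le_inv_mul_iff₀ (norm_pos_iff.mpr hlam)]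
    linarith
  -- one step of the bootstrap
  have step : ∀ M e s : ℝ, (∀ y ∈ S, ‖φ y‖ ≤ M * Reduction.height y ^ e) → 0 ≤ s → s ≤ a →
      a - s + e < 2 →
      ∃ M', ∀ x ∈ S, ‖φ x‖ ≤ M' * Reduction.height x ^ s := by
    intro M e s hM hs hsa hlt
    set D := ENNReal.ofReal (C * |M|) *
      ∫⁻ y in S, ENNReal.ofReal (Reduction.height y ^ (a - s + e)) ∂yVol U
    have hD : D < ⊤ := ENNReal.mul_lt_top ENNReal.ofReal_lt_top (hfin _ hlt)
    refine ⟨‖lam‖⁻¹ * D.toReal, fun x hx => toReal hD (Real.rpow_nonneg (hpos x).le s) ?_⟩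
    refine (habs x).trans ((w.lintegral_le hS hcov (hm x) fun γ y => ?_).trans ?_)
    · simp only [haut γ y]
      rw [← pgl_mk_smul U γ y, H.ker_pgl_right]
    rw [← mul_assoc, ← lintegral_const_mul _ (hmeas.pow_const _).ennreal_ofReal]
    refine setLIntegral_mono' hS fun y hy => ?_
    have hX := Real.rpow_nonneg (hpos x).le s
    rw [← ENNReal.ofReal_mul hX, ← ENNReal.ofReal_mul (mul_nonneg hX (by positivity))]
    refine ENNReal.ofReal_le_ofReal ?_
    rw [Real.rpow_add (hpos y)]
    calc ‖H.ker t (x, y)‖ * ‖φ y‖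
        ≤ (C * (Reduction.height x ^ s * Reduction.height y ^ (a - s))) *
            (|M| * Reduction.height y ^ e) :=
          mul_le_mul (hC x hx y hy s hs hsa)
            ((hM y hy).trans (mul_le_mul_of_nonneg_right (le_abs_self M)
              (Real.rpow_nonneg (hpos y).le _)))
            (norm_nonneg _)
            (mul_nonneg hC0 (mul_nonneg hX (Real.rpow_nonneg (hpos y).le _)))
      _ = _ := by ring
  -- the initial bound, exponent `a`
  have init : ∃ M, ∀ x ∈ S, ‖φ x‖ ≤ M * (1 + Reduction.height x ^ a) := by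
    set I := ∫⁻ y in S, ENNReal.ofReal (Reduction.height y ^ a) ∂yVol U
    set J := ∫⁻ y, ENNReal.ofReal (‖φ y‖ ^ 2) ∂w.measure
    have hJ : J < ⊤ :=
      ((memLp_two_iff_integrable_sq_norm hφ.aestronglyMeasurable).mp hL2).lintegral_lt_top
    set D := ENNReal.ofReal (C ^ 2) * I + J
    have hD : D < ⊤ :=
      ENNReal.add_lt_top.mpr ⟨ENNReal.mul_lt_top ENNReal.ofReal_lt_top (hfin _ ha2), hJ⟩
    refine ⟨‖lam‖⁻¹ * D.toReal, fun x hx => toReal hD (by
      have := Real.rpow_nonneg (hpos x).le a; linarith) ?_⟩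
    have hsq : Measurable fun y => ENNReal.ofReal (‖H.ker t (x, y)‖ ^ 2) :=
      ((((H.measurable_ker t).comp measurable_prodMk_left).norm).pow_const 2).ennreal_ofReal
    calc ENNReal.ofReal (‖lam‖ * ‖φ x‖)
        ≤ ∫⁻ y, ENNReal.ofReal (‖H.ker t (x, y)‖ * ‖φ y‖) ∂w.measure := habs x
      _ ≤ ∫⁻ y, ENNReal.ofReal (‖H.ker t (x, y)‖ ^ 2) + ENNReal.ofReal (‖φ y‖ ^ 2) ∂w.measure :=
          lintegral_mono fun y => by
            rw [← ENNReal.ofReal_add (sq_nonneg _) (sq_nonneg _)]
            exact ENNReal.ofReal_le_ofReal (by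
              nlinarith [sq_nonneg (‖H.ker t (x, y)‖ - ‖φ y‖), norm_nonneg (H.ker t (x, y)),
                norm_nonneg (φ y)])
      _ = (∫⁻ y, ENNReal.ofReal (‖H.ker t (x, y)‖ ^ 2) ∂w.measure) + J := lintegral_add_left hsq _
      _ ≤ ENNReal.ofReal (Reduction.height x ^ a) * (ENNReal.ofReal (C ^ 2) * I) + J := by
          gcongr
          refine (w.lintegral_le hS hcov hsq fun γ y => by
            rw [← pgl_mk_smul U γ y, H.ker_pgl_right]).trans ?_
          rw [← mul_assoc, ← lintegral_const_mul _ (hmeas.pow_const _).ennreal_ofReal]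
          refine setLIntegral_mono' hS fun y hy => ?_
          have hX := Real.rpow_nonneg (hpos x).le a
          rw [← ENNReal.ofReal_mul hX, ← ENNReal.ofReal_mul (mul_nonneg hX (sq_nonneg C))]
          refine ENNReal.ofReal_le_ofReal ?_
          have h2 := pow_le_pow_left₀ (norm_nonneg _)
            (hC x hx y hy (a / 2) (by linarith) (by linarith)) 2
          refine h2.trans (le_of_eq ?_)
          rw [mul_pow, mul_pow, ← Real.rpow_natCast (Reduction.height x ^ (a / 2)) 2,
            ← Real.rpow_natCast (Reduction.height y ^ (a - a / 2)) 2, ← Real.rpow_mul (hpos x).le,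
            ← Real.rpow_mul (hpos y).le, Nat.cast_two, show a / 2 * 2 = a by ring,
            show (a - a / 2) * 2 = a by ring]
          ring
      _ ≤ ENNReal.ofReal (1 + Reduction.height x ^ a) * D := by
          rw [mul_add]
          refine add_le_add (mul_le_mul_left (ENNReal.ofReal_le_ofReal (by linarith)) _) ?_
          refine le_mul_of_one_le_left' ?_
          rw [← ENNReal.ofReal_one]
          exact ENNReal.ofReal_le_ofReal (by linarith [Real.rpow_nonneg (hpos x).le a])
  -- heights on the Siegel set are bounded below, so `1 + h ^ a = O(h ^ a)`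
  have init' : ∃ M, ∀ x ∈ S, ‖φ x‖ ≤ M * Reduction.height x ^ a := by
    obtain ⟨M, hM⟩ := init
    set n := Fintype.card (InfinitePlace F)
    have hlow : ∀ x ∈ S, (b₀ ^ n) ^ a ≤ Reduction.height x ^ a := fun x hx => by
      refine Real.rpow_le_rpow (by positivity) ?_ (by linarith)
      rw [show n = (Finset.univ : Finset (InfinitePlace F)).card from Finset.card_univ.symm,
        ← Finset.prod_const]
      exact Finset.prod_le_prod (fun _ _ => hb₀.le) fun v _ => (hx.1 v).1
    have hb : (0 : ℝ) < (b₀ ^ n) ^ a := by positivity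
    refine ⟨|M| * (((b₀ ^ n) ^ a)⁻¹ + 1), fun x hx => (hM x hx).trans ?_⟩
    have hX := Real.rpow_nonneg (hpos x).le a
    calc M * (1 + Reduction.height x ^ a) ≤ |M| * (1 + Reduction.height x ^ a) :=
          mul_le_mul_of_nonneg_right (le_abs_self M) (by linarith)
      _ ≤ |M| * ((((b₀ ^ n) ^ a)⁻¹ + 1) * Reduction.height x ^ a) := by
          refine mul_le_mul_of_nonneg_left ?_ (abs_nonneg M)
          rw [add_mul, one_mul]
          refine add_le_add_left ?_ _
          rw [le_inv_mul_iff₀ hb, mul_one]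
          exact hlow x hx
      _ = _ := (mul_assoc _ _ _).symm
  obtain ⟨M, hM⟩ := exponent_descent ha1 ha2
    (P := fun e => ∃ M, ∀ x ∈ S, ‖φ x‖ ≤ M * Reduction.height x ^ e)
    (fun e s ⟨M, hM⟩ => step M e s hM) init'
  refine ⟨M, fun x => ?_⟩
  obtain ⟨γ, hγ⟩ := hcov x
  rw [← haut γ x]
  simpa using hM _ hγ

end Fermat.Agent.LT.Spectral.HeckeFamily
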