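import Fermat.Agent.LT.Spectral.Bound
import Fermat.Agent.LT.Whittaker.Producer

/-!
# Eigenforms of the tests

A joint eigenvector not killed by all tests is represented by a bounded continuous automorphic
function, which is an eigenfunction of every radial operator and of every Hecke function of the
family, with real radial eigenvalues bounded by the `L¹` norms of the kernels.
-/

noncomputable section

open MeasureTheory Topology
open scoped NumberField ComplexConjugate InnerProductSpace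
open NumberField (InfinitePlace IsTotallyComplex)

namespace Fermat.Agent.LT.Spectral

variable {F : Type*} [Field F] [NumberField F] {U : Level F} {ι : Type*}

open Classical in
/-- The eigenvalue of `T` at `φ`, or zero. -/
def eigVal (T : (Y U → ℂ) → (Y U → ℂ)) (φ : Y U → ℂ) : ℂ :=
  if h : ∃ c : ℂ, T φ = fun y => c * φ y then h.choose else 0

/-- The eigenvalue of a nonzero eigenfunction is determined. -/
theorem eigVal_eq {T : (Y U → ℂ) → (Y U → ℂ)} {φ : Y U → ℂ} {c : ℂ}
    (h : T φ = fun y => c * φ y) (hne : ∃ y, φ y ≠ 0) : eigVal T φ = c := by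
  classical
  have hex : ∃ c : ℂ, T φ = fun y => c * φ y := ⟨c, h⟩
  obtain ⟨y, hy⟩ := hne
  rw [eigVal, dif_pos hex]
  exact mul_right_cancel₀ hy (congrFun (hex.choose_spec.symm.trans h) y)

/-- The sum of the absolute values on a coset row, independent of the row. -/
def heckeNorm (h : HeckeFn U) : ℝ := ∑ᶠ b, ‖h.kernel (QuotientGroup.mk 1) b‖

theorem finsum_norm_kernel (h : HeckeFn U) (a : GLFin F ⧸ U.toSubgroup) :
    ∑ᶠ b, ‖h.kernel a b‖ = heckeNorm h := by
  induction a using QuotientGroup.induction_on with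
  | H g =>
    refine (finsum_eq_of_bijective (fun b => g • b) (MulAction.bijective g) fun b => ?_).symm
    rw [← h.kernel_smul g, MulAction.Quotient.smul_mk, smul_eq_mul, mul_one]

theorem norm_hecke_op_le (h : HeckeFn U) {φ : Y U → ℂ} {M : ℝ} (hM : ∀ y, ‖φ y‖ ≤ M) (y : Y U) :
    ‖h.op φ y‖ ≤ heckeNorm h * M := by
  rw [hecke_op_eq_sum, ← finsum_norm_kernel h y.2,
    finsum_eq_sum_of_support_subset _
      (s := (Kernel.finite_kernel_support h y.2).toFinset) fun b hb => by
        simpa using hb]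
  rw [Finset.sum_mul]
  refine (norm_sum_le _ _).trans (Finset.sum_le_sum fun b _ => ?_)
  rw [norm_mul]
  exact mul_le_mul_of_nonneg_left (hM _) (norm_nonneg _)

/-- An eigenvalue on a bounded eigenfunction is at most the operator bound. -/
theorem norm_eigenvalue_le {T : (Y U → ℂ) → (Y U → ℂ)} {φ : Y U → ℂ} {c : ℂ} {N : ℝ}
    (h : T φ = fun y => c * φ y) (hT : ∀ M, (∀ y, ‖φ y‖ ≤ M) → ∀ y, ‖T φ y‖ ≤ N * M)
    (hne : ∃ y, φ y ≠ 0) (hb : ∃ M, ∀ y, ‖φ y‖ ≤ M) : ‖c‖ ≤ N := by
  obtain ⟨y₀, hy₀⟩ := hne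
  obtain ⟨M₀, hM₀⟩ := hb
  have hbdd : BddAbove (Set.range fun y => ‖φ y‖) := ⟨M₀, by rintro _ ⟨y, rfl⟩; exact hM₀ y⟩
  have : Nonempty (Y U) := ⟨y₀⟩
  set M := ⨆ y, ‖φ y‖
  have hM : ∀ y, ‖φ y‖ ≤ M := le_ciSup hbdd
  have hMpos : 0 < M := (norm_pos_iff.mpr hy₀).trans_le (hM y₀)
  refine le_of_mul_le_mul_right ?_ hMpos
  rw [Real.mul_iSup_of_nonneg (norm_nonneg c)]
  refine ciSup_le fun y => ?_
  rw [← norm_mul, ← congrFun h y]
  exact hT M hM y

namespace HeckeFamily

/-- A bounded continuous automorphic eigenfunction of all tests, not killed by all of them. -/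
structure IsEigenForm (H : HeckeFamily U ι) (φ : Y U → ℂ) (χ : LipKernel F × ι → ℂ) : Prop where
  continuous : Continuous φ
  automorphic : IsAutomorphic φ
  bounded : ∃ M : ℝ, ∀ y, ‖φ y‖ ≤ M
  ne_zero : ∃ y, φ y ≠ 0
  act_eq : ∀ t, H.act t φ = fun y => χ t * φ y
  conj_eq : ∀ t, χ (H.adjTest t) = conj (χ t)
  exists_ne : ∃ t, χ t ≠ 0

/-- The radial eigenvalue. -/
def radialVal (k : RadialKernel F) (φ : Y U → ℂ) : ℂ := eigVal k.op φ

/-- The Hecke eigenvalue. -/
def heckeVal (H : HeckeFamily U ι) (j : ι) (φ : Y U → ℂ) : ℂ := eigVal (H.fn j).op φ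

variable (H : HeckeFamily U ι) (w : Weight U)

/-- Eigenvectors not killed by all tests give eigenforms. -/
theorem exists_eigenForm [IsTotallyComplex F] {v : Lp ℂ 2 w.measure} (hv : v ≠ 0)
    {χ : LipKernel F × ι → ℂ} (hχ : ∀ t, H.opT w t v = χ t • v) (hne : ∃ t, χ t ≠ 0) :
    ∃ φ, H.IsEigenForm φ χ ∧ (v : Y U → ℂ) =ᵐ[w.measure] φ := by
  obtain ⟨t₀, ht₀⟩ := hne
  set φ : Y U → ℂ := fun y => (χ t₀)⁻¹ * H.rep w t₀ v y
  have hae : (v : Y U → ℂ) =ᵐ[w.measure] φ := by
    have h1 := H.coe_opT w t₀ v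
    rw [hχ t₀] at h1
    filter_upwards [h1, Lp.coeFn_smul (χ t₀) v] with y hy hy'
    rw [hy', Pi.smul_apply, smul_eq_mul] at hy
    simp only [φ, ← hy, inv_mul_cancel_left₀ ht₀]
  have hc : Continuous φ := continuous_const.mul (H.continuous_rep w t₀ v)
  have ha : IsAutomorphic φ := fun γ y => by simp only [φ, H.rep_isAutomorphic w t₀ v γ y]
  have hrep : ∀ t, H.rep w t v = H.act t φ := fun t => H.rep_of_ae w t hae hc ha
  have h0 : H.act t₀ φ = fun y => χ t₀ * φ y := by
    rw [← hrep]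
    funext y
    simp only [φ, mul_inv_cancel_left₀ ht₀]
  have hact : ∀ t, H.act t φ = fun y => χ t * φ y := by
    intro t
    have e : (H.act t φ) =ᵐ[w.measure] fun y => χ t * φ y := by
      rw [← hrep]
      have h1 := H.coe_opT w t v
      rw [hχ t] at h1
      filter_upwards [h1, Lp.coeFn_smul (χ t) v, hae] with y h1 h2 h3
      rw [← h1, h2, Pi.smul_apply, smul_eq_mul, h3]
    have hcont : Continuous (H.act t φ) := hrep t ▸ H.continuous_rep w t v
    have haut : IsAutomorphic (H.act t φ) := hrep t ▸ H.rep_isAutomorphic w t v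
    have h1 : H.act t₀ (H.act t φ) = fun y => χ t * (χ t₀ * φ y) := by
      funext x
      rw [act, ← integral_autKer_mul w t₀.1.toRadialKernel t₀.1.pointKer (fun P Q => rfl) _ hcont
        haut x]
      have h2 : ∫ y, H.ker t₀ (x, y) * φ y ∂w.measure = χ t₀ * φ x := by
        rw [← congrFun h0 x, act,
          ← integral_autKer_mul w t₀.1.toRadialKernel t₀.1.pointKer (fun P Q => rfl) _ hc ha x]
        rfl
      rw [← h2, ← integral_const_mul]
      refine integral_congr_ae ?_
      filter_upwards [e] with y hy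
      rw [hy, mul_left_comm]
      rfl
    rw [H.act_comm t₀ t hc, h0, H.act_const_mul] at h1
    funext y
    exact mul_left_cancel₀ ht₀ ((congrFun h1 y).trans (mul_left_comm _ _ _))
  have hL2 : MemLp φ 2 w.measure := (Lp.memLp v).ae_eq hae
  refine ⟨φ, ⟨hc, ha, H.eigen_bounded w t₀ ht₀ hc ha hL2 fun x => ?_, ?_, hact, fun t => ?_,
    ⟨t₀, ht₀⟩⟩, hae⟩
  · rw [← congrFun h0 x, act,
      ← integral_autKer_mul w t₀.1.toRadialKernel t₀.1.pointKer (fun P Q => rfl) _ hc ha x]
    rfl
  · by_contra hcon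
    push Not at hcon
    exact hv ((Lp.eq_zero_iff_ae_eq_zero).mpr (hae.trans (Filter.Eventually.of_forall hcon)))
  · have h := (H.compactFamily w).adjoint_apply (fun i => ⟨χ i, hχ i⟩) t (hχ t)
    rw [H.adjoint_opT w, hχ] at h
    exact smul_left_injective ℂ hv h

namespace IsEigenForm

variable {H} {φ : Y U → ℂ} {χ : LipKernel F × ι → ℂ}

/-- The unit Hecke function fixes an eigenform. -/
theorem one_op (hφ : H.IsEigenForm φ χ) : (H.fn H.one).op φ = φ := by
  obtain ⟨t, ht⟩ := hφ.exists_ne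
  have e : φ = fun y => (χ t)⁻¹ * H.act t φ y := funext fun y => by
    rw [hφ.act_eq t, inv_mul_cancel_left₀ ht]
  have h1 : (H.fn H.one).op (H.act t φ) = H.act t φ := by
    rw [act, hecke_radial_comm _ _ (continuous_hecke_op _ hφ.continuous), H.one_op]
  conv_lhs => rw [e, hecke_op_const_mul, h1, ← e]

/-- Some radial test with trivial Hecke part does not kill an eigenform. -/
theorem exists_radial_base (hφ : H.IsEigenForm φ χ) : ∃ k : LipKernel F, χ (k, H.one) ≠ 0 := by
  obtain ⟨⟨k, i⟩, ht⟩ := hφ.exists_ne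
  refine ⟨k, fun h0 => ?_⟩
  have h1 : k.op φ = fun _ => 0 := by
    have := hφ.act_eq (k, H.one)
    simpa [act, hφ.one_op, h0] using this
  have h2 : H.act (k, i) φ = fun _ => 0 := by
    rw [act, ← hecke_radial_comm _ _ hφ.continuous, h1]
    funext y
    simp [hecke_op_eq_sum]
  obtain ⟨y, hy⟩ := hφ.ne_zero
  exact mul_ne_zero ht hy ((congrFun ((hφ.act_eq (k, i)).symm.trans h2) y))

/-- An eigenform is an eigenfunction of every radial operator. -/
theorem radial_op (hφ : H.IsEigenForm φ χ) (k : RadialKernel F) :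
    k.op φ = fun y => radialVal k φ * φ y := by
  obtain ⟨k₀, h₀⟩ := hφ.exists_radial_base
  have h1 : k₀.op φ = fun y => χ (k₀, H.one) * φ y := by
    have := hφ.act_eq (k₀, H.one)
    rwa [act, hφ.one_op] at this
  have h2 : k.op (k₀.op φ) = fun y => χ (LipKernel.conv k k₀, H.one) * φ y := by
    have := hφ.act_eq (LipKernel.conv k k₀, H.one)
    rw [act, hφ.one_op] at this
    rwa [radial_op_op _ _ hφ.continuous]
  rw [h1, radial_op_const_mul] at h2
  have h3 : k.op φ = fun y => (χ (k₀, H.one))⁻¹ * χ (LipKernel.conv k k₀, H.one) * φ y :=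
    funext fun y => by rw [mul_assoc, ← congrFun h2 y, inv_mul_cancel_left₀ h₀]
  rwa [radialVal, eigVal_eq h3 hφ.ne_zero]

/-- An eigenform is an eigenfunction of every Hecke function of the family. -/
theorem hecke_op (hφ : H.IsEigenForm φ χ) (j : ι) :
    (H.fn j).op φ = fun y => H.heckeVal j φ * φ y := by
  obtain ⟨k₀, h₀⟩ := hφ.exists_radial_base
  have h1 : k₀.op φ = fun y => χ (k₀, H.one) * φ y := by
    have := hφ.act_eq (k₀, H.one)
    rwa [act, hφ.one_op] at this
  have h2 : (H.fn j).op (k₀.op φ) = fun y => χ (k₀, j) * φ y := by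
    rw [hecke_radial_comm _ _ hφ.continuous]
    exact hφ.act_eq (k₀, j)
  rw [h1, hecke_op_const_mul] at h2
  have h3 : (H.fn j).op φ = fun y => (χ (k₀, H.one))⁻¹ * χ (k₀, j) * φ y :=
    funext fun y => by rw [mul_assoc, ← congrFun h2 y, inv_mul_cancel_left₀ h₀]
  rwa [heckeVal, eigVal_eq h3 hφ.ne_zero]

/-- The eigenvalue of a test is the product of its radial and Hecke eigenvalues. -/
theorem chi_eq (hφ : H.IsEigenForm φ χ) (t : LipKernel F × ι) :
    χ t = radialVal t.1.toRadialKernel φ * H.heckeVal t.2 φ := by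
  obtain ⟨y, hy⟩ := hφ.ne_zero
  have h := hφ.act_eq t
  rw [act, hφ.hecke_op, radial_op_const_mul, hφ.radial_op] at h
  have h' := congrFun h y
  simp only at h'
  exact mul_right_cancel₀ hy (by rw [← h']; ring)

theorem radialVal_conv (hφ : H.IsEigenForm φ χ) (k : RadialKernel F) (l : LipKernel F) :
    radialVal (LipKernel.conv k l).toRadialKernel φ =
      radialVal k φ * radialVal l.toRadialKernel φ := by
  refine eigVal_eq ?_ hφ.ne_zero
  show (convKernel k l.toRadialKernel).op φ = _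
  rw [← radial_op_op _ _ hφ.continuous, hφ.radial_op l.toRadialKernel, radial_op_const_mul,
    hφ.radial_op k]
  funext y
  ring

/-- The unit Hecke function has eigenvalue `1`. -/
theorem heckeVal_one (hφ : H.IsEigenForm φ χ) : H.heckeVal H.one φ = 1 :=
  eigVal_eq (by simp [hφ.one_op]) hφ.ne_zero

/-- Radial eigenvalues are real. -/
theorem conj_radialVal (hφ : H.IsEigenForm φ χ) (k : RadialKernel F) :
    conj (radialVal k φ) = radialVal k φ := by
  obtain ⟨k₀, h₀⟩ := hφ.exists_radial_base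
  have real : ∀ l : LipKernel F, conj (radialVal l.toRadialKernel φ) =
      radialVal l.toRadialKernel φ := fun l => by
    have h := hφ.conj_eq (l, H.one)
    rw [adjTest, H.star_one, hφ.chi_eq, hφ.heckeVal_one, mul_one] at h
    exact h.symm
  have h := real (LipKernel.conv k k₀)
  rw [hφ.radialVal_conv, map_mul, real k₀] at h
  refine mul_right_cancel₀ ?_ h
  rw [hφ.chi_eq, hφ.heckeVal_one, mul_one] at h₀
  exact h₀

/-- The adjoint Hecke function has the conjugate eigenvalue. -/
theorem conj_heckeVal (hφ : H.IsEigenForm φ χ) (j : ι) :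
    conj (H.heckeVal j φ) = H.heckeVal (H.star j) φ := by
  obtain ⟨k₀, h₀⟩ := hφ.exists_radial_base
  rw [hφ.chi_eq, hφ.heckeVal_one, mul_one] at h₀
  have h := hφ.conj_eq (k₀, j)
  rw [adjTest, hφ.chi_eq, hφ.chi_eq, map_mul, hφ.conj_radialVal] at h
  exact (mul_left_cancel₀ h₀ h).symm

/-- A Hecke eigenvalue is bounded by the norm of the Hecke function. -/
theorem norm_heckeVal_le (hφ : H.IsEigenForm φ χ) (j : ι) :
    ‖H.heckeVal j φ‖ ≤ heckeNorm (H.fn j) :=
  norm_eigenvalue_le (T := (H.fn j).op) (hφ.hecke_op j) (fun _ hM => norm_hecke_op_le _ hM)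
    hφ.ne_zero hφ.bounded

/-- The averages that kill the constant term. -/
theorem average (hφ : H.IsEigenForm φ χ) (c : GLFin F ⧸ U.toSubgroup) :
    ∃ (n : ℕ) (u : Fin (n + 1) → FinAdele F), ∀ P, ∑ l, φ (P, unip (u l) • c) = 0 := by
  classical
  obtain ⟨n, u, hu⟩ := H.average c
  refine ⟨n, u, fun P => ?_⟩
  set T := Finset.univ.biUnion fun l : Fin (n + 1) =>
    (Kernel.finite_kernel_support (H.fn H.one) (unip (u l) • c)).toFinset
  have h : ∀ l, φ (P, unip (u l) • c) =
      ∑ b ∈ T, (H.fn H.one).kernel (unip (u l) • c) b * φ (P, b) := fun l => by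
    conv_lhs => rw [← hφ.one_op]
    refine finsum_eq_sum_of_support_subset _ fun b hb => ?_
    rw [Finset.coe_biUnion]
    refine Set.mem_iUnion₂.mpr ⟨l, Finset.mem_univ l, ?_⟩
    rw [Set.Finite.coe_toFinset]
    exact left_ne_zero_of_mul (Function.mem_support.mp hb)
  simp only [h]
  rw [Finset.sum_comm]
  exact Finset.sum_eq_zero fun b _ => by rw [← Finset.sum_mul, hu b, zero_mul]

/-- A Hecke operator realised in the family. -/
theorem doubleOp_eq (hφ : H.IsEigenForm φ χ) {x : GLFin F} {j : ι}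
    (hx : ∀ ψ : Y U → ℂ, (H.fn j).op ψ = doubleOp x ((H.fn H.one).op ψ)) :
    doubleOp x φ = fun y => H.heckeVal j φ * φ y := by
  rw [← hφ.hecke_op j, hx φ, hφ.one_op]

end IsEigenForm

end HeckeFamily

end Fermat.Agent.LT.Spectral
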