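import Fermat.Agent.LT.Spectral.Test
import Fermat.Agent.LT.HeckeAlg.Algebra
import Fermat.Agent.LT.Kernel.Bound
import Fermat.Agent.LT.Kernel.CuspMul

/-!
# A Hecke family from a commutative star-closed monoid and a cuspidal idempotent
-/

noncomputable section

open scoped NumberField ComplexConjugate

namespace Fermat.Agent.LT.Spectral

variable {F : Type*} [Field F] [NumberField F] {U : Level F}

/-- The cusp condition gives vanishing averages of the kernel along unipotent translates. -/
theorem exists_average {h : HeckeFn U} (hc : Kernel.HasCuspCondition h)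
    (c : GLFin F ⧸ U.toSubgroup) :
    ∃ (n : ℕ) (u : Fin (n + 1) → FinAdele F), ∀ b, ∑ l, h.kernel (unip (u l) • c) b = 0 := by
  classical
  induction c using QuotientGroup.induction_on with | H r => ?_
  obtain ⟨S, hS, hsum⟩ := hc r
  have hcard : S.card = S.card - 1 + 1 :=
    (Nat.sub_add_cancel (Finset.card_pos.mpr hS)).symm
  let e : Fin (S.card - 1 + 1) ≃ S := (finCongr hcard.symm).trans S.equivFin.symm
  refine ⟨S.card - 1, fun l => -(e l : FinAdele F), fun b => ?_⟩
  induction b using QuotientGroup.induction_on with | H m => ?_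
  have key : ∀ s : FinAdele F, h.kernel ((unip (-s) : GLFin F) • (QuotientGroup.mk r))
      (QuotientGroup.mk m) = h.toFun (r⁻¹ * unip s * m) := fun s => by
    rw [MulAction.Quotient.smul_mk, smul_eq_mul, HeckeFn.kernel_mk, mul_inv_rev]
    congr 2
    rw [show (unip (-s) : GLFin F) = (unip s)⁻¹ from eq_inv_of_mul_eq_one_left (by
      rw [← Kernel.unip_add, neg_add_cancel]; exact AddChar.map_zero_eq_one _), inv_inv]
  simp only [key]
  rw [e.sum_comp (fun s : S => h.toFun (r⁻¹ * unip (s : FinAdele F) * m)),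
    Finset.sum_coe_sort S fun s => h.toFun (r⁻¹ * unip s * m)]
  exact hsum m

/-- The family `m * e`, `m ∈ M`. -/
def HeckeFamily.ofSubmonoid (M : Submonoid (HeckeFn U)) (hM : ∀ a ∈ M, ∀ b ∈ M, Commute a b)
    (hstar : ∀ a ∈ M, Star.star a ∈ M) (e : HeckeFn U) (he : e * e = e) (hes : Star.star e = e)
    (hec : ∀ a ∈ M, Commute a e) (hcusp : Kernel.HasCuspCondition e) : HeckeFamily U M where
  fn m := (m : HeckeFn U) * e
  one := 1
  mul m n := m * n
  star m := ⟨Star.star (m : HeckeFn U), hstar m m.2⟩
  one_op m φ := by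
    rw [← HeckeFn.op_mul]
    congr 1
    rw [Submonoid.coe_one, one_mul, (hec m m.2).eq, ← mul_assoc, he]
  mul_op m n φ := by
    rw [← HeckeFn.op_mul]
    congr 1
    rw [Submonoid.coe_mul, mul_assoc (m : HeckeFn U) e, ← mul_assoc e, ← (hec n n.2).eq,
      mul_assoc (n : HeckeFn U) e, he, mul_assoc]
  comm m n φ := by
    rw [← HeckeFn.op_mul, ← HeckeFn.op_mul]
    congr 1
    rw [mul_assoc, mul_assoc, ← mul_assoc e, ← mul_assoc e, ← (hec n n.2).eq, ← (hec m m.2).eq,
      mul_assoc, mul_assoc, he, ← mul_assoc, ← mul_assoc, (hM m m.2 n n.2).eq]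
  star_one := Subtype.ext (by simp)
  star_kernel m a b := by
    rw [← HeckeFn.kernel_star]
    congr 1
    rw [star_mul, hes]
    exact (hec _ (hstar m m.2)).eq
  average c := by
    simpa only [Submonoid.coe_one, one_mul] using exists_average hcusp c
  bound K m R A B b hb := by
    obtain ⟨C, -, hC⟩ := Kernel.exists_bound_siegel K ((m : HeckeFn U) * e)
      (hcusp.mul_left (m : HeckeFn U)) R A B hb
    exact ⟨C, hC⟩

end Fermat.Agent.LT.Spectral
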