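import Fermat.Agent.LT.Spectral.Test
import Fermat.Agent.LT.Operators.Kernel
import Fermat.Agent.LT.Operators.Spectral
import Fermat.Agent.LT.Kernel.Measure

/-!
# The operators of the tests on `L²(weight * yVol)`

Every image is represented by a continuous automorphic function; products, commutation and
adjoints follow from the action on those representatives, without convolving kernels.
-/

noncomputable section

open MeasureTheory Topology
open scoped NumberField ComplexConjugate ENNReal InnerProductSpace
open NumberField (InfinitePlace IsTotallyComplex)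

namespace Fermat.Agent.LT.Spectral

variable {F : Type*} [Field F] [NumberField F] {U : Level F} {ι : Type*}

/-- A compact set of points lies in a Siegel set. -/
theorem exists_siegel_of_isCompact {N : Set (InfinitePlace F → H3)} (hN : IsCompact N)
    (c : GLFin F ⧸ U.toSubgroup) :
    ∃ (A B b : ℝ), 0 < b ∧ ∀ P ∈ N, ((P, c) : Y U) ∈ Reduction.siegel U {c.out} A B b := by
  have hf : Continuous fun P : InfinitePlace F → H3 =>
      ∑ w, (H3.tc (P w) + (H3.tc (P w))⁻¹ + ‖H3.zc (P w)‖) := by
    refine continuous_finsetSum _ fun w _ => ?_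
    have h1 : Continuous fun P : InfinitePlace F → H3 => H3.tc (P w) :=
      H3.continuous_tc.comp (continuous_apply w)
    have h2 : Continuous fun P : InfinitePlace F → H3 => ‖H3.zc (P w)‖ :=
      (H3.continuous_zc.comp (continuous_apply w)).norm
    exact (h1.add (h1.inv₀ fun P => (H3.tc_pos _).ne')).add h2
  obtain ⟨M, hM⟩ := hN.exists_bound_of_continuousOn hf.continuousOn
  set T := max M 1
  refine
    ⟨T, T * T, T⁻¹, by positivity, fun P hP => ⟨fun w => ?_, c.out, Finset.mem_singleton_self _,
    (QuotientGroup.out_eq' c).symm⟩⟩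
  have hall : ∀ v, H3.tc (P v) ≤ T ∧ T⁻¹ ≤ H3.tc (P v) ∧ ‖H3.zc (P v)‖ ≤ T := by
    intro v
    have h := (le_abs_self _).trans ((hM P hP).trans (le_max_left M 1))
    have hv := Finset.single_le_sum
      (f := fun u => H3.tc (P u) + (H3.tc (P u))⁻¹ + ‖H3.zc (P u)‖)
      (fun u _ => by have := H3.tc_pos (P u); positivity) (Finset.mem_univ v)
    have ht := H3.tc_pos (P v)
    have hi := inv_pos.mpr ht
    have hz := norm_nonneg (H3.zc (P v))
    exact ⟨by linarith, (inv_le_comm₀ ht (by positivity)).mp (by linarith), by linarith⟩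
  refine ⟨(hall w).2.1, (hall w).2.2, fun w' => (hall w).1.trans ?_⟩
  have hT : 0 < T := by positivity
  calc T = T * T * T⁻¹ := by field_simp
    _ ≤ T * T * H3.tc (P w') := by
      exact mul_le_mul_of_nonneg_left (hall w').2.1 (by positivity)

/-- An invariant nonnegative function integrates over the weight to at most its integral over a
covering set. -/
theorem Weight.lintegral_le (w : Weight U) {S : Set (Y U)} (hS : MeasurableSet S)
    (hcov : ∀ y : Y U, ∃ γ : GL (Fin 2) F, γ • y ∈ S) {A : Y U → ℝ≥0∞} (hA : Measurable A)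
    (hinv : ∀ (γ : GL (Fin 2) F) (y : Y U), A (γ • y) = A y) :
    ∫⁻ y, A y ∂w.measure ≤ ∫⁻ y in S, A y ∂yVol U := by
  rw [w.lintegral_eq hA]
  exact Kernel.lintegral_weight_le U w.toPartitionOfUnity w.measurable hS hcov A hA hinv

namespace HeckeFamily

variable (H : HeckeFamily U ι) (w : Weight U)

section Kernels

variable [IsTotallyComplex F]

/-- The automorphic kernel of a test is square-integrable. -/
theorem isKernel (t : LipKernel F × ι) :
    Operators.IsKernel w.measure w.measure (H.ker t) := by
  obtain ⟨R, A, B, b, hb, hcov⟩ := Reduction.exists_siegel U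
  obtain ⟨C, hC0, hC⟩ := H.exists_split_bound t R A B hb
  set S := Reduction.siegel U R A B b with hSdef
  have hS : MeasurableSet S := Reduction.measurableSet_siegel R A B b
  have ha := Kernel.one_le_gainExp F
  set a := Kernel.gainExp F
  have hm := H.measurable_ker t
  refine (memLp_two_iff_integrable_sq_norm hm.aestronglyMeasurable).mpr
    ⟨(hm.norm.pow_const 2).aestronglyMeasurable, ?_⟩
  set f : Y U × Y U → ℝ≥0∞ := fun p => ENNReal.ofReal (‖H.ker t p‖ ^ 2)
  have hfm : Measurable f := (hm.norm.pow_const 2).ennreal_ofReal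
  rw [hasFiniteIntegral_iff_ofReal (Filter.Eventually.of_forall fun p => sq_nonneg _)]
  rw [lintegral_prod _ hfm.aemeasurable]
  have hin : ∀ x, ∫⁻ y, f (x, y) ∂w.measure ≤ ∫⁻ y in S, f (x, y) ∂yVol U := fun x =>
    w.lintegral_le hS hcov (hfm.comp measurable_prodMk_left) fun γ y => by
      simp only [f, ← pgl_mk_smul U γ y, H.ker_pgl_right]
  refine lt_of_le_of_lt (lintegral_mono hin) ?_
  refine lt_of_le_of_lt
    (w.lintegral_le hS hcov (hfm.lintegral_prod_right' (ν := (yVol U).restrict S))
    fun γ x => by simp only [f, ← pgl_mk_smul U γ x, H.ker_pgl_left]) ?_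
  have hint := Reduction.integrableOn_siegel_height (U := U) (Kernel.gainExp_lt_two F) R A B hb
  set I := ∫⁻ y in S, ENNReal.ofReal (Reduction.height y ^ a) ∂yVol U
  have hI : I < ⊤ := hint.lintegral_lt_top
  have hpt : ∀ x ∈ S, ∀ y ∈ S, f (x, y) ≤ ENNReal.ofReal (C ^ 2) *
      (ENNReal.ofReal (Reduction.height x ^ a) * ENNReal.ofReal (Reduction.height y ^ a)) := by
    intro x hx y hy
    have hX := Reduction.height_pos x
    have hY := Reduction.height_pos y
    rw [← ENNReal.ofReal_mul (Real.rpow_nonneg hX.le _), ← ENNReal.ofReal_mul (sq_nonneg C)]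
    refine ENNReal.ofReal_le_ofReal ?_
    have h := hC x hx y hy (a / 2) (by linarith) (by linarith)
    have e : (C * (Reduction.height x ^ (a / 2) * Reduction.height y ^ (a - a / 2))) ^ 2 =
        C ^ 2 * (Reduction.height x ^ a * Reduction.height y ^ a) := by
      rw [mul_pow, mul_pow, ← Real.rpow_natCast (Reduction.height x ^ (a / 2)) 2,
        ← Real.rpow_natCast (Reduction.height y ^ (a - a / 2)) 2, ← Real.rpow_mul hX.le,
        ← Real.rpow_mul hY.le]
      congr 3 <;> push_cast <;> ring
    rw [← e]
    exact pow_le_pow_left₀ (norm_nonneg _) h 2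
  refine lt_of_le_of_lt (setLIntegral_mono' hS fun x hx => setLIntegral_mono' hS (hpt x hx)) ?_
  have hh : Measurable fun y : Y U => ENNReal.ofReal (Reduction.height y ^ a) := by
    refine (Measurable.pow_const ?_ a).ennreal_ofReal
    exact Finset.measurable_prod _ fun v _ => H3.continuous_tc.measurable.comp
      ((measurable_pi_apply v).comp measurable_fst)
  calc ∫⁻ x in S, ∫⁻ y in S, ENNReal.ofReal (C ^ 2) *
        (ENNReal.ofReal (Reduction.height x ^ a) * ENNReal.ofReal (Reduction.height y ^ a))
          ∂yVol U ∂yVol U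
      = ENNReal.ofReal (C ^ 2) * (I * I) := by
        simp only [← mul_assoc]
        simp_rw [lintegral_const_mul _ hh]
        rw [lintegral_mul_const _ (hh.const_mul _), lintegral_const_mul _ hh]
    _ < ⊤ := ENNReal.mul_lt_top ENNReal.ofReal_lt_top (ENNReal.mul_lt_top hI hI)

/-- The operator of a test. -/
def opT (t : LipKernel F × ι) : Lp ℂ 2 w.measure →L[ℂ] Lp ℂ 2 w.measure :=
  Operators.kernelCLM (H.isKernel w t)

/-- The continuous representative of the image. -/
def rep (t : LipKernel F × ι) (g : Lp ℂ 2 w.measure) (x : Y U) : ℂ :=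
  ∫ y, H.ker t (x, y) * g y ∂w.measure

/-- The image of an `L²` vector is represented by `rep`. -/
theorem coe_opT (t : LipKernel F × ι) (g : Lp ℂ 2 w.measure) :
    (H.opT w t g : Y U → ℂ) =ᵐ[w.measure] H.rep w t g :=
  Operators.kernelCLM_coe (H.isKernel w t) g

end Kernels

/-- The representative of an image is automorphic. -/
theorem rep_isAutomorphic (t : LipKernel F × ι) (g : Lp ℂ 2 w.measure) :
    IsAutomorphic (H.rep w t g) := fun γ x => by
  simp only [rep, ← pgl_mk_smul U γ x, H.ker_pgl_left]

/-- The representative of an image is continuous. -/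
theorem continuous_rep (t : LipKernel F × ι) (g : Lp ℂ 2 w.measure) :
    Continuous (H.rep w t g) := by
  refine continuous_of_slices fun c => continuous_iff_continuousAt.mpr fun P₀ => ?_
  obtain ⟨N, hN, hP⟩ := exists_compact_mem_nhds P₀
  obtain ⟨A, B, b, hb, hS⟩ := exists_siegel_of_isCompact (U := U) hN c
  obtain ⟨C, hC⟩ := H.bound t.1.pointKer t.2 {c.out} A B b hb
  have hhc : Continuous fun P : InfinitePlace F → H3 => ∏ v, H3.tc (P v) :=
    continuous_finsetProd _ fun v _ => H3.continuous_tc.comp (continuous_apply v)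
  obtain ⟨M, hM⟩ := hN.exists_bound_of_continuousOn
    (f := fun P => (∏ v, H3.tc (P v)) ^ Kernel.gainExp F)
    (hhc.rpow_const fun P => Or.inl (Finset.prod_pos fun v _ => H3.tc_pos _).ne').continuousOn
  refine continuousAt_of_dominated (bound := fun y => |C| * M * ‖g y‖) ?_ ?_ ?_ ?_
  · exact Filter.Eventually.of_forall fun P =>
      ((H.measurable_ker t).comp measurable_prodMk_left).aestronglyMeasurable.mul
        (Lp.aestronglyMeasurable g)
  · filter_upwards [hP] with P hP'
    refine Filter.Eventually.of_forall fun y => ?_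
    rw [norm_mul]
    refine mul_le_mul_of_nonneg_right (((hC _ (hS P hP') y)).trans ?_) (norm_nonneg _)
    refine mul_le_mul (le_abs_self C) ((Real.le_norm_self _).trans (hM P hP')) ?_ (abs_nonneg C)
    exact Real.rpow_nonneg (Reduction.height_pos _).le _
  · exact ((Lp.memLp g).integrable one_le_two).norm.const_mul _
  · refine Filter.Eventually.of_forall fun y => Continuous.continuousAt ?_
    have h1 : Continuous fun x : Y U => H.ker t (x, y) :=
      (Kernel.continuous_autKer t.1.pointKer (H.fn t.2)).comp (Continuous.prodMk_left y)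
    exact (continuous_slice h1 c).mul continuous_const

/-- On a continuous automorphic representative the operator is the action of the test. -/
theorem rep_of_ae (t : LipKernel F × ι) {g : Lp ℂ 2 w.measure} {Φ : Y U → ℂ}
    (h : (g : Y U → ℂ) =ᵐ[w.measure] Φ) (hΦ : Continuous Φ) (haut : IsAutomorphic Φ) :
    H.rep w t g = H.act t Φ := by
  funext x
  rw [act, ← integral_autKer_mul w t.1.toRadialKernel t.1.pointKer (fun P Q => rfl) (H.fn t.2)
    hΦ haut x]
  refine integral_congr_ae ?_
  filter_upwards [h] with y hy
  rw [hy]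
  rfl

/-! ### The identities between actions -/

/-- The actions of two tests commute. -/
theorem act_comm (s t : LipKernel F × ι) {φ : Y U → ℂ} (hφ : Continuous φ) :
    H.act s (H.act t φ) = H.act t (H.act s φ) := by
  have h1 := continuous_hecke_op (H.fn t.2) hφ
  have h2 := continuous_hecke_op (H.fn s.2) hφ
  simp only [act]
  rw [hecke_radial_comm _ _ h1, hecke_radial_comm _ _ h2, H.comm,
    radial_op_comm _ _ (continuous_hecke_op _ h2)]

/-- Tests commute with scalars. -/
theorem act_const_mul (t : LipKernel F × ι) (c : ℂ) (φ : Y U → ℂ) :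
    H.act t (fun y => c * φ y) = fun y => c * H.act t φ y := by
  simp only [act, hecke_op_const_mul, radial_op_const_mul]

/-! ### The algebra of operators -/

variable [IsTotallyComplex F]

/-- The adjoint of the operator of a test is the operator of the adjoint test. -/
theorem adjoint_opT (t : LipKernel F × ι) :
    ContinuousLinearMap.adjoint (H.opT w t) = H.opT w (H.adjTest t) := by
  rw [opT, Operators.adjoint_kernelCLM]
  refine Operators.kernelCLM_congr _ _ (Filter.Eventually.of_forall fun p => ?_)
  exact (H.ker_adj t p.1 p.2).symm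

/-- On a continuous automorphic representative the operator is the action, with continuous
automorphic image. -/
theorem opT_of_ae (t : LipKernel F × ι) {g : Lp ℂ 2 w.measure} {Φ : Y U → ℂ}
    (h : (g : Y U → ℂ) =ᵐ[w.measure] Φ) (hΦ : Continuous Φ) (haut : IsAutomorphic Φ) :
    (H.opT w t g : Y U → ℂ) =ᵐ[w.measure] H.act t Φ ∧ Continuous (H.act t Φ) ∧
      IsAutomorphic (H.act t Φ) := by
  rw [← H.rep_of_ae w t h hΦ haut]
  exact ⟨H.coe_opT w t g, H.continuous_rep w t g, H.rep_isAutomorphic w t g⟩

omit H in
/-- Operators agreeing after every `T l`, with adjoints through the `T l`, are equal. -/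
theorem eq_of_forall_comp_eq {E κ : Type*} [NormedAddCommGroup E] [InnerProductSpace ℂ E]
    [CompleteSpace E] {T : κ → E →L[ℂ] E} {A B X Y : E →L[ℂ] E} {i j : κ}
    (h : ∀ l, A ∘L T l = B ∘L T l) (hA : ContinuousLinearMap.adjoint A = T i ∘L X)
    (hB : ContinuousLinearMap.adjoint B = T j ∘L Y) : A = B := by
  set D := A - B with hD
  have hT : ∀ l x, D (T l x) = 0 := fun l x => by
    rw [hD, sub_apply, sub_eq_zero]
    exact congrArg (fun f : E →L[ℂ] E => f x) (h l)
  have hD' : ContinuousLinearMap.adjoint D = T i ∘L X - T j ∘L Y := by rw [hD, map_sub, hA, hB]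
  clear_value D
  have h' : ∀ x, D (ContinuousLinearMap.adjoint D x) = 0 := fun x => by
    rw [hD', sub_apply, ContinuousLinearMap.comp_apply, ContinuousLinearMap.comp_apply, map_sub,
      hT, hT, sub_zero]
  have h0 : ContinuousLinearMap.adjoint D = 0 := by
    ext x
    rw [zero_apply, ← inner_self_eq_zero (𝕜 := ℂ), ContinuousLinearMap.adjoint_inner_left,
      h', inner_zero_right]
  rw [← sub_eq_zero, ← hD, ← ContinuousLinearMap.adjoint_adjoint D, h0, map_zero]

/-- The operators of two tests commute. -/
theorem opT_comm (s t : LipKernel F × ι) :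
    H.opT w s ∘L H.opT w t = H.opT w t ∘L H.opT w s := by
  have key : ∀ l, (H.opT w s ∘L H.opT w t) ∘L H.opT w l =
      (H.opT w t ∘L H.opT w s) ∘L H.opT w l := by
    intro l
    ext g : 1
    refine Lp.ext ?_
    have h0 := H.coe_opT w l g
    have hc := H.continuous_rep w l g
    have ha := H.rep_isAutomorphic w l g
    obtain ⟨e1, c1, a1⟩ := H.opT_of_ae w t h0 hc ha
    obtain ⟨e2, -, -⟩ := H.opT_of_ae w s e1 c1 a1
    obtain ⟨e3, c3, a3⟩ := H.opT_of_ae w s h0 hc ha
    obtain ⟨e4, -, -⟩ := H.opT_of_ae w t e3 c3 a3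
    rw [H.act_comm s t hc] at e2
    simp only [ContinuousLinearMap.comp_apply]
    exact e2.trans e4.symm
  exact eq_of_forall_comp_eq key
    (by rw [ContinuousLinearMap.adjoint_comp, adjoint_opT, adjoint_opT])
    (by rw [ContinuousLinearMap.adjoint_comp, adjoint_opT, adjoint_opT])

/-- The tests form a commuting adjoint-closed family of Hilbert–Schmidt operators. -/
theorem compactFamily : Operators.CompactFamily (H.opT w) (Set.univ : Set (LipKernel F × ι)) where
  comm := H.opT_comm w
  adj t := ⟨H.adjTest t, (H.adjoint_opT w t).symm⟩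
  adjC t _ := ⟨H.adjTest t, trivial, (H.adjoint_opT w t).symm⟩
  compact t _ := Operators.isCompactOperator_kernelCLM (H.isKernel w t)

/-- The operator of a test is Hilbert–Schmidt. -/
theorem isHS_opT (t : LipKernel F × ι) : L2Kernel.IsHS (H.opT w t) :=
  Operators.isHS_kernelCLM (H.isKernel w t)

end HeckeFamily

end Fermat.Agent.LT.Spectral
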