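import Fermat.Agent.LT.Spectral.Eigen

/-!
# Radial operators at a single infinite place
-/

noncomputable section

open MeasureTheory Topology Function
open scoped NumberField ComplexConjugate
open NumberField (InfinitePlace IsTotallyComplex)

namespace Fermat.Agent.LT.Spectral

variable {F : Type*} [Field F] [NumberField F] {U : Level F}

/-- A continuous compactly supported profile. -/
structure Profile where
  /-- The function. -/
  toFun : ℝ → ℝ
  continuous : Continuous toFun
  hasCompactSupport : HasCompactSupport toFun

open Classical in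
/-- The radial operator at the place `v`. -/
def opAt (v : InfinitePlace F) (k : Profile) (φ : Y U → ℂ) (y : Y U) : ℂ :=
  H3.kop k.toFun (fun R => φ (update y.1 v R, y.2)) (y.1 v)

open Classical in
/-- Convolution at one place. -/
def convAt (v : InfinitePlace F) (k : Profile) (l : RadialKernel F) : RadialKernel F where
  profile := update l.profile v (H3.conv k.toFun (l.profile v))
  continuous w := by
    by_cases hw : w = v
    · subst hw
      simpa using H3.continuous_conv k.continuous (l.continuous w) (l.hasCompactSupport w)
    · simpa [update_of_ne hw] using l.continuous w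
  hasCompactSupport w := by
    by_cases hw : w = v
    · subst hw
      simpa using H3.hasCompactSupport_conv k.hasCompactSupport (l.hasCompactSupport w)
    · simpa [update_of_ne hw] using l.hasCompactSupport w

theorem integrable_profile_mul (k : Profile) (S : H3) {g : H3 → ℝ} (hg : Continuous g) :
    Integrable (fun R => k.toFun (H3.cdist S R) * g R) H3.vol :=
  H3.integrable_profile_smul k.continuous k.hasCompactSupport S hg

open Classical in
theorem integral_profile_mul_weight (v : InfinitePlace F) (k : Profile) (l : RadialKernel F)
    (P Q : InfinitePlace F → H3) :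
    ∫ R, k.toFun (H3.cdist (P v) R) * l.weight (update P v R) Q ∂H3.vol =
      (convAt v k l).weight P Q := by
  have hsplit : ∀ R, k.toFun (H3.cdist (P v) R) * l.weight (update P v R) Q =
      (∏ w ∈ Finset.univ.erase v, l.profile w (H3.cdist (P w) (Q w))) *
        (k.toFun (H3.cdist (P v) R) * l.profile v (H3.cdist R (Q v))) := fun R => by
    rw [weight_eq, ← Finset.mul_prod_erase _ _ (Finset.mem_univ v), update_self,
      Finset.prod_congr rfl (g := fun w => l.profile w (H3.cdist (P w) (Q w))) fun w hw => by
        rw [update_of_ne (Finset.ne_of_mem_erase hw)]]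
    ring
  simp only [hsplit]
  rw [integral_const_mul, H3.integral_mul_eq_conv, weight_eq,
    ← Finset.mul_prod_erase _ _ (Finset.mem_univ v), mul_comm]
  congr 1
  · simp [convAt]
  · exact Finset.prod_congr rfl fun w hw => by
      simp [convAt, update_of_ne (Finset.ne_of_mem_erase hw)]

open Classical in
theorem continuous_update_weight (v : InfinitePlace F) (l : RadialKernel F)
    (P : InfinitePlace F → H3) :
    Continuous fun p : H3 × (InfinitePlace F → H3) => l.weight (update P v p.1) p.2 := by
  have h0 : Continuous fun p : H3 × (InfinitePlace F → H3) =>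
      ((update P v p.1, p.2) : (InfinitePlace F → H3) × (InfinitePlace F → H3)) :=
    (Continuous.update (f := fun _ : H3 × (InfinitePlace F → H3) => P) continuous_const v
      continuous_fst).prodMk continuous_snd
  have h1 := Continuous.comp (continuous_weight₂ l) h0
  simpa only [Function.comp_def] using h1

namespace LipKernel

open Classical in
/-- Convolution at one place with a Lipschitz kernel. -/
def convAt (v : InfinitePlace F) (k : Profile) (l : LipKernel F) : LipKernel F where
  toRadialKernel := Spectral.convAt v k l.toRadialKernel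
  lipschitz := by
    obtain ⟨L, hL, h⟩ := l.lipschitz
    refine ⟨(∫ R, |k.toFun (H3.cdist H3.origin R)| ∂H3.vol) * L,
      mul_nonneg (integral_nonneg fun R => abs_nonneg _) hL, fun P Q Q' => ?_⟩
    have hc : ∀ Q, Continuous fun R => l.weight (update P v R) Q := fun Q => by
      have h2 : Continuous fun R : H3 => ((R, Q) : H3 × (InfinitePlace F → H3)) :=
        continuous_id.prodMk continuous_const
      have h3 := Continuous.comp (continuous_update_weight v l.toRadialKernel P) h2
      simpa only [Function.comp_def] using h3
    have hint : ∀ Q, Integrable (fun R => k.toFun (H3.cdist (P v) R) *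
        l.weight (update P v R) Q) H3.vol := fun Q =>
      integrable_profile_mul k (P v) (hc Q)
    have habs : ∫ R, |k.toFun (H3.cdist (P v) R)| ∂H3.vol =
        ∫ R, |k.toFun (H3.cdist H3.origin R)| ∂H3.vol := by
      obtain ⟨g, hg⟩ := H3.exists_smul_eq (P v) H3.origin
      rw [← hg, ← H3.integral_smul_vol g fun R => |k.toFun (H3.cdist (g • P v) R)|]
      simp only [H3.cdist_smul]
    rw [← integral_profile_mul_weight, ← integral_profile_mul_weight,
      ← integral_sub (hint Q) (hint Q')]
    refine abs_integral_le_integral_abs.trans ((integral_mono ((hint Q).sub (hint Q')).abs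
      ?_ fun R => ?_).trans_eq (b := ∫ R, |k.toFun (H3.cdist (P v) R)| *
        (L * ∑ w, Kernel.hdist (Q w) (Q' w)) ∂H3.vol) ?_)
    · refine Integrable.mul_const ?_ _
      simpa using (integrable_profile_mul k (P v) (continuous_const (y := (1 : ℝ)))).abs
    · simp only [Pi.sub_apply]
      rw [← mul_sub, abs_mul]
      exact mul_le_mul_of_nonneg_left (h _ Q Q') (abs_nonneg _)
    · rw [integral_mul_const, habs, mul_assoc]

end LipKernel

open Classical in
/-- A radial operator at one place composes with a radial operator by convolution at that place. -/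
theorem opAt_op (v : InfinitePlace F) (k : Profile) (l : RadialKernel F) {ψ : Y U → ℂ}
    (hψ : Continuous ψ) : opAt v k (l.op ψ) = (convAt v k l).op ψ := by
  funext y
  obtain ⟨P, c⟩ := y
  obtain ⟨Rk, hRk⟩ := H3.exists_bound_profile k.hasCompactSupport
  set N : Set (InfinitePlace F → H3) :=
    (fun R => update P v R) '' {R | H3.cdist (P v) R ≤ Rk}
  have hN : IsCompact N :=
    (H3.isCompact_cdist_le (P v) Rk).image (continuous_const.update v continuous_id)
  obtain ⟨C, hC, hCN⟩ := H3.exists_compact_prod_profile l.hasCompactSupport hN
  calc opAt v k (l.op ψ) (P, c)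
      = ∫ R, ∫ Q, (k.toFun (H3.cdist (P v) R) * l.weight (update P v R) Q) • ψ (Q, c)
          ∂infVol F ∂H3.vol := by
        simp only [opAt, H3.kop, RadialKernel.op, mul_smul, integral_smul]
    _ = ∫ Q, ∫ R, (k.toFun (H3.cdist (P v) R) * l.weight (update P v R) Q) • ψ (Q, c)
          ∂H3.vol ∂infVol F := by
        refine integral_integral_swap_of_hasCompactSupport ?_ ?_
        · exact (((k.continuous.comp (H3.continuous_cdist_left (P v))).comp continuous_fst).mul
            (continuous_update_weight v l P)).smul ((continuous_slice hψ c).comp continuous_snd)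
        · refine HasCompactSupport.intro ((H3.isCompact_cdist_le (P v) Rk).prod hC) fun q hq => ?_
          obtain ⟨R, Q⟩ := q
          simp only [uncurry_apply_pair]
          by_cases hR : H3.cdist (P v) R ≤ Rk
          · rw [show l.weight (update P v R) Q = 0 from
              hCN _ (Set.mem_image_of_mem _ hR) Q fun h => hq ⟨hR, h⟩, mul_zero, zero_smul]
          · rw [hRk _ (not_le.mp hR), zero_mul, zero_smul]
    _ = (convAt v k l).op ψ (P, c) := by
        simp only [RadialKernel.op, integral_smul_const, integral_profile_mul_weight]

/-- Radial operators at one place commute with scalars. -/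
theorem opAt_const_mul (v : InfinitePlace F) (k : Profile) (c : ℂ) (φ : Y U → ℂ) :
    opAt v k (fun y => c * φ y) = fun y => c * opAt v k φ y := by
  funext y
  simp only [opAt, H3.kop, Complex.real_smul]
  rw [← integral_const_mul]
  congr 1
  funext R
  ring

/-- The `L¹` norm of a profile. -/
def profileNorm (k : Profile) : ℝ := ∫ R, |k.toFun (H3.cdist H3.origin R)| ∂H3.vol

/-- The operator at one place is bounded by the `L¹` norm of the profile. -/
theorem norm_opAt_le (v : InfinitePlace F) (k : Profile) {φ : Y U → ℂ} {M : ℝ}
    (hM : ∀ y, ‖φ y‖ ≤ M) (y : Y U) : ‖opAt v k φ y‖ ≤ profileNorm k * M := by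
  obtain ⟨g, hg⟩ := H3.exists_smul_eq (y.1 v) H3.origin
  have habs : profileNorm k = ∫ R, |k.toFun (H3.cdist (y.1 v) R)| ∂H3.vol := by
    rw [profileNorm, ← hg, ← H3.integral_smul_vol g fun R => |k.toFun (H3.cdist (g • y.1 v) R)|]
    simp only [H3.cdist_smul]
  rw [habs, ← integral_mul_const]
  refine norm_integral_le_of_norm_le ?_ (Filter.Eventually.of_forall fun R => ?_)
  · refine Integrable.mul_const ?_ M
    simpa using (integrable_profile_mul k (y.1 v) (continuous_const (y := (1 : ℝ)))).abs
  · rw [norm_smul, Real.norm_eq_abs]
    exact mul_le_mul_of_nonneg_left (hM _) (abs_nonneg _)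

namespace HeckeFamily

variable {ι : Type*} {H : HeckeFamily U ι}

/-- The eigenvalue at one place. -/
def radialAtVal (v : InfinitePlace F) (k : Profile) (φ : Y U → ℂ) : ℂ := eigVal (opAt v k) φ

namespace IsEigenForm

variable {φ : Y U → ℂ} {χ : LipKernel F × ι → ℂ}

theorem radialVal_ne_zero_base (hφ : H.IsEigenForm φ χ) :
    ∃ k₀ : LipKernel F, radialVal k₀.toRadialKernel φ ≠ 0 := by
  obtain ⟨k₀, h₀⟩ := hφ.exists_radial_base
  refine ⟨k₀, ?_⟩
  rwa [hφ.chi_eq, hφ.heckeVal_one, mul_one] at h₀

theorem opAt_eq_radial (hφ : H.IsEigenForm φ χ) (v : InfinitePlace F) (k : Profile)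
    (l : RadialKernel F) :
    (fun y => radialVal l φ * opAt v k φ y) = fun y => radialVal (convAt v k l) φ * φ y := by
  have h := opAt_op v k l hφ.continuous
  rw [hφ.radial_op l, opAt_const_mul, hφ.radial_op (convAt v k l)] at h
  exact h

/-- An eigenform is an eigenfunction of the radial operators at one place. -/
theorem opAt_eq (hφ : H.IsEigenForm φ χ) (v : InfinitePlace F) (k : Profile) :
    opAt v k φ = fun y => radialAtVal v k φ * φ y := by
  obtain ⟨k₀, h₀⟩ := hφ.radialVal_ne_zero_base
  have h := hφ.opAt_eq_radial v k k₀.toRadialKernel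
  have h2 : opAt v k φ = fun y => (radialVal k₀.toRadialKernel φ)⁻¹ *
      radialVal (convAt v k k₀.toRadialKernel) φ * φ y := funext fun y => by
    rw [mul_assoc, ← congrFun h y, inv_mul_cancel_left₀ h₀]
  rwa [radialAtVal, eigVal_eq h2 hφ.ne_zero]

theorem radialVal_convAt (hφ : H.IsEigenForm φ χ) (v : InfinitePlace F) (k : Profile)
    (l : RadialKernel F) :
    radialVal (convAt v k l) φ = radialAtVal v k φ * radialVal l φ := by
  obtain ⟨y, hy⟩ := hφ.ne_zero
  have h := congrFun (hφ.opAt_eq_radial v k l) y
  simp only [hφ.opAt_eq v k] at h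
  exact mul_right_cancel₀ hy (by rw [← h]; ring)

/-- A radial eigenvalue at one place is bounded by the profile norm. -/
theorem norm_radialAtVal_le (hφ : H.IsEigenForm φ χ) (v : InfinitePlace F) (k : Profile) :
    ‖radialAtVal v k φ‖ ≤ profileNorm k :=
  norm_eigenvalue_le (T := opAt v k) (hφ.opAt_eq v k) (fun _ hM => norm_opAt_le v k hM)
    hφ.ne_zero hφ.bounded

/-- Eigenvalues at one place are real. -/
theorem conj_radialAtVal (hφ : H.IsEigenForm φ χ) (v : InfinitePlace F) (k : Profile) :
    conj (radialAtVal v k φ) = radialAtVal v k φ := by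
  obtain ⟨k₀, h₀⟩ := hφ.radialVal_ne_zero_base
  have h := hφ.conj_radialVal (convAt v k k₀.toRadialKernel)
  rw [hφ.radialVal_convAt, map_mul, hφ.conj_radialVal] at h
  exact mul_right_cancel₀ h₀ h

/-- Parameter zero at every place gives a cusp form. -/
theorem isSphericalCuspForm_of_places [IsTotallyComplex F] (hφ : H.IsEigenForm φ χ)
    (hk : ∀ (v : InfinitePlace F) (k : Profile), radialAtVal v k φ = (H3.sph k.toFun : ℂ)) :
    IsSphericalCuspForm φ := by
  classical
  have hr : IsRadialEigen φ :=
    isRadialEigen_of_slice (continuous_slice hφ.continuous) fun y v =>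
      { continuous := (continuous_slice hφ.continuous y.2).comp
          (continuous_const.update v continuous_id)
        kop_eq := fun k hk' hs S => by
          have h := congrFun (hφ.opAt_eq v ⟨k, hk', hs⟩) ((update y.1 v S, y.2) : Y U)
          rw [hk] at h
          simp only [opAt, update_idem, update_self] at h
          rw [Complex.real_smul]
          exact h }
  exact Whittaker.isSphericalCuspForm_of_average hφ.automorphic (continuous_slice hφ.continuous)
    hφ.bounded hr hφ.average

end IsEigenForm

end HeckeFamily

end Fermat.Agent.LT.Spectral
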