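import Fermat.Agent.LT.Spectral.Measure
import Fermat.Agent.LT.Kernel.Count
import Fermat.Agent.LT.Reduction.Public

/-!
# Test data: Lipschitz radial kernels and a commutative family of cuspidal Hecke functions

The only analytic input is the growth bound `|K (x, y)| ≤ C · height x ^ gainExp` on Siegel sets.
-/

noncomputable section

open MeasureTheory Topology
open scoped NumberField ComplexConjugate
open NumberField (InfinitePlace)

namespace Fermat.Agent.LT.Spectral

variable {F : Type*} [Field F] [NumberField F]

variable (F) in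
/-- A radial kernel, Lipschitz for the hyperbolic distance in the second variable. -/
structure LipKernel extends RadialKernel F where
  lipschitz : ∃ L : ℝ, 0 ≤ L ∧ ∀ P Q Q',
    |toRadialKernel.weight P Q - toRadialKernel.weight P Q'| ≤
      L * ∑ w, Kernel.hdist (Q w) (Q' w)

namespace LipKernel

/-- The kernel on points. -/
def pointKer (k : LipKernel F) : Kernel.PointKer F where
  toFun P Q := (k.weight P Q : ℂ)
  smul' g P Q := congrArg (fun r : ℝ => (r : ℂ)) (Kernel.weight_smul k.toRadialKernel g P Q)
  continuous' := Complex.continuous_ofReal.comp (continuous_weight₂ k.toRadialKernel)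
  support' := by
    choose R hR using fun w => H3.exists_bound_profile (k.hasCompactSupport w)
    refine ⟨1 + ∑ w, |R w|, le_add_of_nonneg_right (Finset.sum_nonneg fun _ _ => abs_nonneg _),
      fun P Q h w => ?_⟩
    rw [Complex.ofReal_ne_zero, RadialKernel.weight, Finset.prod_ne_zero_iff] at h
    have h1 := not_lt.mp fun hlt => h w (Finset.mem_univ w) (hR w _ hlt)
    have h2 := Finset.single_le_sum (f := fun w => |R w|) (fun _ _ => abs_nonneg _)
      (Finset.mem_univ w)
    linarith [le_abs_self (R w)]
  lipschitz' := by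
    obtain ⟨L, hL, h⟩ := k.lipschitz
    exact ⟨L, hL, fun P Q Q' => by
      rw [← Complex.ofReal_sub, Complex.norm_real, Real.norm_eq_abs]
      exact h P Q Q'⟩

/-- Lipschitz profiles give such a kernel. -/
def ofProfiles (k : RadialKernel F) (hk : ∀ w, ∃ L, LipschitzWith L (k.profile w)) :
    LipKernel F where
  toRadialKernel := k
  lipschitz := ⟨_, (Kernel.PointKer.ofRadial k hk).lip_nonneg, fun P Q Q' => by
    have h := (Kernel.PointKer.ofRadial k hk).norm_sub_le P Q Q'
    rwa [Kernel.PointKer.ofRadial_apply, Kernel.PointKer.ofRadial_apply, ← Complex.ofReal_sub,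
      Complex.norm_real, Real.norm_eq_abs] at h⟩

theorem integrable_weight_mul (k : RadialKernel F) {g : (InfinitePlace F → H3) → ℝ}
    (hg : Continuous g) (P : InfinitePlace F → H3) :
    Integrable (fun Q => k.weight P Q * g Q) (infVol F) := by
  have h := integrable_weight_smul k (Complex.continuous_ofReal.comp hg) P
  exact h.re.congr (Filter.Eventually.of_forall fun Q => by simp [Complex.real_smul])

theorem integral_abs_weight_le (k : RadialKernel F) (P : InfinitePlace F → H3) :
    ∫ Q, |k.weight P Q| ∂infVol F =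
      ∏ w, ∫ Q, |k.profile w (H3.cdist H3.origin Q)| ∂H3.vol := by
  simp only [weight_eq, Finset.abs_prod, infVol]
  rw [integral_fintype_prod_eq_prod (f := fun w Q => |k.profile w (H3.cdist (P w) Q)|)]
  refine Finset.prod_congr rfl fun w _ => ?_
  obtain ⟨g, hg⟩ := H3.exists_smul_eq (P w) H3.origin
  rw [← hg, ← H3.integral_smul_vol g fun Q => |k.profile w (H3.cdist (g • P w) Q)|]
  simp only [H3.cdist_smul]

/-- The convolution of a radial kernel with a Lipschitz one. -/
def conv (k : RadialKernel F) (l : LipKernel F) : LipKernel F where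
  toRadialKernel := convKernel k l.toRadialKernel
  lipschitz := by
    obtain ⟨L, hL, h⟩ := l.lipschitz
    refine ⟨(∏ w, ∫ Q, |k.profile w (H3.cdist H3.origin Q)| ∂H3.vol) * L,
      mul_nonneg (Finset.prod_nonneg fun w _ => integral_nonneg fun Q => abs_nonneg _) hL,
      fun P R R' => ?_⟩
    have hint : ∀ R, Integrable (fun Q => k.weight P Q * l.weight Q R) (infVol F) := fun R =>
      integrable_weight_mul k ((continuous_weight₂ l.toRadialKernel).comp
        (continuous_id.prodMk continuous_const)) P
    rw [← integral_weight_mul_weight, ← integral_weight_mul_weight,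
      ← integral_sub (hint R) (hint R')]
    calc |∫ Q, k.weight P Q * l.weight Q R - k.weight P Q * l.weight Q R' ∂infVol F|
        ≤ ∫ Q, |k.weight P Q * l.weight Q R - k.weight P Q * l.weight Q R'| ∂infVol F :=
          abs_integral_le_integral_abs
      _ ≤ ∫ Q, |k.weight P Q| * (L * ∑ w, Kernel.hdist (R w) (R' w)) ∂infVol F := by
          refine integral_mono ((hint R).sub (hint R')).abs ?_ fun Q => ?_
          · refine Integrable.mul_const ?_ _
            have h1 := (integrable_weight_mul k (continuous_const (y := (1 : ℝ))) P).abs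
            simpa using h1
          · rw [← mul_sub, abs_mul]
            exact mul_le_mul_of_nonneg_left (h Q R R') (abs_nonneg _)
      _ = _ := by rw [integral_mul_const, integral_abs_weight_le, mul_assoc]

end LipKernel

/-- A commutative family of Hecke functions containing a cuspidal idempotent acting as one. -/
structure HeckeFamily (U : Level F) (ι : Type*) where
  /-- The functions. -/
  fn : ι → HeckeFn U
  /-- The idempotent. -/
  one : ι
  /-- The product. -/
  mul : ι → ι → ι
  /-- The adjoint. -/
  star : ι → ι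
  one_op : ∀ i (φ : Y U → ℂ), (fn one).op ((fn i).op φ) = (fn i).op φ
  mul_op : ∀ i j (φ : Y U → ℂ), (fn (mul i j)).op φ = (fn i).op ((fn j).op φ)
  comm : ∀ i j (φ : Y U → ℂ), (fn i).op ((fn j).op φ) = (fn j).op ((fn i).op φ)
  star_one : star one = one
  star_kernel : ∀ i a b, (fn (star i)).kernel a b = conj ((fn i).kernel b a)
  average : ∀ c : GLFin F ⧸ U.toSubgroup, ∃ (n : ℕ) (u : Fin (n + 1) → FinAdele F),
    ∀ b, ∑ l, (fn one).kernel (unip (u l) • c) b = 0
  bound : ∀ (K : Kernel.PointKer F) (i : ι) (R : Finset (GLFin F)) (A B b : ℝ), 0 < b →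
    ∃ C : ℝ, ∀ x ∈ Reduction.siegel U R A B b, ∀ y,
      ‖Kernel.autKer K (fn i) x y‖ ≤ C * Reduction.height x ^ Kernel.gainExp F

namespace HeckeFamily

variable {U : Level F} {ι : Type*} (H : HeckeFamily U ι)

/-- The automorphic kernel of a test. -/
def ker (t : LipKernel F × ι) (p : Y U × Y U) : ℂ :=
  Kernel.autKer t.1.pointKer (H.fn t.2) p.1 p.2

/-- The adjoint test. -/
def adjTest (t : LipKernel F × ι) : LipKernel F × ι := (t.1, H.star t.2)

/-- The product test. -/
def mulTest (s t : LipKernel F × ι) : LipKernel F × ι :=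
  (LipKernel.conv s.1.toRadialKernel t.1, H.mul s.2 t.2)

/-- The action of a test on functions. -/
def act (t : LipKernel F × ι) (φ : Y U → ℂ) : Y U → ℂ := t.1.op ((H.fn t.2).op φ)

/-- The kernel of a test is measurable. -/
theorem measurable_ker (t : LipKernel F × ι) : Measurable (H.ker t) :=
  Kernel.measurable_autKer _ _

/-- The kernel of a test is automorphic in the first variable. -/
theorem ker_pgl_left (t : LipKernel F × ι) (c : PGLIndex F) (x y : Y U) :
    H.ker t (c • x, y) = H.ker t (x, y) := Kernel.autKer_pgl_smul_left _ _ c x y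

/-- The kernel of a test is automorphic in the second variable. -/
theorem ker_pgl_right (t : LipKernel F × ι) (c : PGLIndex F) (x y : Y U) :
    H.ker t (x, c • y) = H.ker t (x, y) := Kernel.autKer_pgl_smul_right _ _ c x y

/-- The adjoint test has the adjoint kernel. -/
theorem ker_adj (t : LipKernel F × ι) (x y : Y U) :
    H.ker (H.adjTest t) (x, y) = conj (H.ker t (y, x)) := by
  simp only [ker, Kernel.autKer]
  rw [Complex.conj_tsum, ← (Equiv.inv (PGLIndex F)).tsum_eq]
  refine tsum_congr fun c => ?_
  rw [Equiv.inv_apply]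
  conv_lhs => rw [← Kernel.pairKer_pgl_smul _ _ c, smul_inv_smul]
  simp only [Kernel.pairKer, adjTest, LipKernel.pointKer, H.star_kernel, map_mul,
    Complex.conj_ofReal, weight_comm]

/-- The bound on Siegel sets, symmetrised and split between the two variables. -/
theorem exists_split_bound (t : LipKernel F × ι) (R : Finset (GLFin F)) (A B : ℝ) {b : ℝ}
    (hb : 0 < b) :
    ∃ C : ℝ, 0 ≤ C ∧ ∀ x ∈ Reduction.siegel U R A B b, ∀ y ∈ Reduction.siegel U R A B b,
      ∀ s : ℝ, 0 ≤ s → s ≤ Kernel.gainExp F →
        ‖H.ker t (x, y)‖ ≤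
          C * (Reduction.height x ^ s * Reduction.height y ^ (Kernel.gainExp F - s)) := by
  obtain ⟨C, hC⟩ := H.bound t.1.pointKer t.2 R A B b hb
  obtain ⟨C', hC'⟩ := H.bound t.1.pointKer (H.star t.2) R A B b hb
  refine ⟨|C| + |C'|, by positivity, fun x hx y hy s hs hsa => ?_⟩
  have hX := Reduction.height_pos x
  have hY := Reduction.height_pos y
  set a := Kernel.gainExp F
  have key : ∀ X Y' D : ℝ, 0 < X → 0 < Y' → X ≤ Y' → ∀ n : ℝ, n ≤ D * X ^ a →
      ∀ p q : ℝ, 0 ≤ p → 0 ≤ q → p + q = a → n ≤ |D| * (X ^ p * Y' ^ q) := by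
    intro X Y' D hX hY' hle n hn p q hp hq hpq
    refine hn.trans (mul_le_mul (le_abs_self D) ?_ (Real.rpow_nonneg hX.le _) (abs_nonneg _))
    rw [← hpq, Real.rpow_add hX]
    exact mul_le_mul_of_nonneg_left (Real.rpow_le_rpow hX.le hle hq) (Real.rpow_nonneg hX.le _)
  have hnn : 0 ≤ Reduction.height x ^ s * Reduction.height y ^ (a - s) :=
    mul_nonneg (Real.rpow_nonneg hX.le _) (Real.rpow_nonneg hY.le _)
  rcases le_total (Reduction.height x) (Reduction.height y) with hle | hle
  · have h1 := key _ _ C hX hY hle _ (hC x hx y) s (a - s) hs (by linarith) (by ring)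
    change ‖Kernel.autKer t.1.pointKer (H.fn t.2) x y‖ ≤ _
    nlinarith [mul_nonneg (abs_nonneg C') hnn]
  · have h2 : ‖H.ker (H.adjTest t) (y, x)‖ ≤ C' * Reduction.height y ^ a := hC' y hy x
    rw [H.ker_adj, Complex.norm_conj] at h2
    have h1 := key _ _ C' hY hX hle _ h2 (a - s) s (by linarith) hs (by ring)
    nlinarith [mul_nonneg (abs_nonneg C) hnn]

end HeckeFamily

end Fermat.Agent.LT.Spectral
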